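import Fermat.Agent.FF.RiemannRoch
import Fermat.Prelude.Def_AlgebraicCurve_Correspondence

/-!
# Finite extensions of function fields: fundamental identity and norm formula
-/

set_option autoImplicit false

noncomputable section

open scoped Classical

open AlgebraicCurve Polynomial IntermediateField IsLocalRing

namespace Fermat.Agent.FF

set_option linter.unusedSectionVars false

variable {K F F' : Type*} [Field K] [Field F] [Field F'] [Algebra K F] [Algebra K F']
  [Algebra F F'] [IsScalarTower K F F'] [FiniteDimensional F F'] [hF : IsFunctionField K F]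

theorem transcendental_algebraMap {x : F} (hx : Transcendental K x) :
    Transcendental K (algebraMap F F' x) :=
  fun h => hx ((isAlgebraic_algebraMap_iff (algebraMap F F').injective).mp h)

theorem finite_and_finrank_adjoin_algebraMap {x : F} (hx : Transcendental K x) :
    FiniteDimensional K⟮algebraMap F F' x⟯ F' ∧
      Module.finrank K⟮algebraMap F F' x⟯ F' = Module.finrank K⟮x⟯ F * Module.finrank F F' := by
  have := finiteDimensional_adjoin hx
  have heq : K⟮x⟯.map (IsScalarTower.toAlgHom K F F') = K⟮algebraMap F F' x⟯ := by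
    rw [adjoin_map, Set.image_singleton]; rfl
  let e : K⟮x⟯ ≃+* K⟮algebraMap F F' x⟯ :=
    ((K⟮x⟯.equivMap (IsScalarTower.toAlgHom K F F')).trans
      (IntermediateField.equivOfEq heq)).toRingEquiv
  have hcomm : (algebraMap K⟮algebraMap F F' x⟯ F').comp e.toRingHom
      = (RingEquiv.refl F').toRingHom.comp (algebraMap K⟮x⟯ F') := by
    ext a
    rfl
  have : Module.Finite K⟮x⟯ F' := Module.Finite.trans F F'
  refine ⟨Module.Finite.of_equiv_equiv e (RingEquiv.refl F') hcomm, ?_⟩
  rw [← Algebra.finrank_eq_of_equiv_equiv e (RingEquiv.refl F') hcomm,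
    Module.finrank_mul_finrank]

theorem isFunctionField_extension (K F F' : Type*) [Field K] [Field F] [Field F'] [Algebra K F]
    [Algebra K F'] [Algebra F F'] [IsScalarTower K F F'] [FiniteDimensional F F']
    [IsFunctionField K F] : IsFunctionField K F' := by
  obtain ⟨x, hx, -⟩ := IsFunctionField.exists_finite (K := K) (F := F)
  have := (finite_and_finrank_adjoin_algebraMap (F' := F') hx).1
  exact isFunctionField_of_finite (transcendental_algebraMap hx)

variable [IsFunctionField K F']

theorem e_pos (w : Place K F') : 0 < w.ramificationIndex F := w.ramificationIndex_pos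

/-- A function on `F` with a single pole, at `v`. -/
theorem exists_single_pole (v : Place K F) :
    ∃ z : F, v.ord z < 0 ∧ ∀ u : Place K F, u ≠ v → 0 ≤ u.ord z := by
  set m : ℕ := genusFF K F + 1
  have h1 := riemann_inequality (Finsupp.single v (m : ℤ))
  have h0 := one_le_ell_zero (K := K) (F := F)
  rw [Divisor.degree_single] at h1
  have hd : (1 : ℤ) ≤ v.deg := by exact_mod_cast deg_pos v
  have hm : (m : ℤ) ≤ m * v.deg := le_mul_of_one_le_right (by omega) hd
  have hlt : ell K (0 : Divisor K F) < ell K (Finsupp.single v (m : ℤ)) := by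
    simp only [m] at hm h1 ⊢
    push_cast at hm h1 ⊢
    omega
  have hle : riemannRochSpace (0 : Divisor K F) ≤ riemannRochSpace (Finsupp.single v (m : ℤ)) :=
    riemannRochSpace_mono (Finsupp.single_nonneg.mpr (by omega))
  have hne : riemannRochSpace (0 : Divisor K F) ≠ riemannRochSpace (Finsupp.single v (m : ℤ)) :=
    fun h => by
      simp only [ell, (LinearEquiv.ofEq _ _ h).finrank_eq, lt_self_iff_false] at hlt
  obtain ⟨z, hz, hz0⟩ := SetLike.exists_of_lt (lt_of_le_of_ne hle hne)
  rw [mem_riemannRochSpace'] at hz hz0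
  have hu : ∀ u : Place K F, u ≠ v → z ∈ ordGe u 0 := fun u hu => by
    simpa [Finsupp.single_eq_of_ne hu] using hz u
  refine ⟨z, ?_, fun u hu' => ord_nonneg u ((mem_ordGe_zero u).mp (hu u hu'))⟩
  by_contra! hc
  refine hz0 fun u => ?_
  rcases eq_or_ne u v with rfl | h
  · exact mem_ordGe_of_le u (by simpa using hc)
  · simpa using hu u h

theorem fundamental_identity (v : Place K F) :
    ∑ w ∈ v.fiber F', (w.ramificationIndex F : ℤ) * (w.deg : ℤ)
      = (Module.finrank F F' : ℤ) * (v.deg : ℤ) := by
  classical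
  obtain ⟨z, hzv, hzu⟩ := exists_single_pole v
  have hz : Transcendental K z := transcendental_of_ord_ne_zero v (by omega)
  have hpol : poles K z = Finsupp.single v (-v.ord z) := by
    ext u
    rcases eq_or_ne u v with rfl | hu
    · simp; omega
    · have := hzu u hu
      simp [Finsupp.single_eq_of_ne hu]; omega
  have hdeg := degree_poles hz
  rw [hpol, Divisor.degree_single] at hdeg
  have hdeg' := degree_poles (transcendental_algebraMap (F' := F') hz)
  rw [(finite_and_finrank_adjoin_algebraMap hz).2] at hdeg'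
  have hsupp : (poles K (algebraMap F F' z)).support ⊆ v.fiber F' := fun w hw => by
    rw [Place.mem_fiber]
    by_contra hne
    have := hzu _ hne
    simp only [Finsupp.mem_support_iff, poles_apply, w.ord_restrict (F := F)] at hw
    have : 0 ≤ (w.ramificationIndex F : ℤ) * (w.restrict F).ord z := by positivity
    omega
  rw [degree_eq_sum _ _ hsupp] at hdeg'
  have hsum : ∑ w ∈ v.fiber F', poles K (algebraMap F F' z) w * (w.deg : ℤ) =
      (-v.ord z) * ∑ w ∈ v.fiber F', (w.ramificationIndex F : ℤ) * w.deg := by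
    rw [Finset.mul_sum]
    refine Finset.sum_congr rfl fun w hw => ?_
    rw [poles_apply, w.ord_restrict (F := F), Place.mem_fiber.mp hw, max_eq_right]
    · ring
    · have : 0 ≤ (w.ramificationIndex F : ℤ) * (-v.ord z) :=
        mul_nonneg (Int.natCast_nonneg _) (by omega)
      linarith [this]
  rw [hsum, Nat.cast_mul, ← hdeg] at hdeg'
  exact mul_left_cancel₀ (show -v.ord z ≠ 0 by omega) (hdeg'.trans (by ring))

instance fundamentalIdentity : FundamentalIdentity K F F' := ⟨fundamental_identity⟩

theorem exists_restrict_eq (v : Place K F) : ∃ w : Place K F', w.restrict F = v := by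
  by_contra! h
  have h1 := fundamental_identity (F' := F') v
  rw [Finset.sum_eq_zero (fun w hw => absurd (Place.mem_fiber.mp hw) (h w))] at h1
  have : (0 : ℤ) < (Module.finrank F F' : ℤ) * v.deg := by
    have := deg_pos v
    have := Module.finrank_pos (R := F) (M := F')
    positivity
  omega

theorem sum_ramification_inertia (v : Place K F) :
    ∑ w ∈ v.fiber F', (w.ramificationIndex F : ℤ) * (w.inertiaDeg F : ℤ)
      = (Module.finrank F F' : ℤ) := by
  refine mul_right_cancel₀ (b := (v.deg : ℤ)) (by exact_mod_cast (deg_pos v).ne') ?_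
  rw [← fundamental_identity (F' := F') v, Finset.sum_mul]
  refine Finset.sum_congr rfl fun w hw => ?_
  have h1 := w.deg_restrict_mul_inertiaDeg (F := F)
  rw [Place.mem_fiber.mp hw] at h1
  rw [← h1]; push_cast; ring

instance sumRamificationInertia : SumRamificationInertia K F F' := ⟨sum_ramification_inertia⟩

theorem algebraMap_mem_ordGe (w : Place K F') {c : F} {n : ℤ}
    (hc : c ∈ ordGe (w.restrict F) n) :
    algebraMap F F' c ∈ ordGe w ((w.ramificationIndex F : ℤ) * n) := by
  rw [mem_ordGe] at hc ⊢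
  rcases hc with rfl | hc
  · exact Or.inl (map_zero _)
  · right
    rw [w.ord_restrict]
    exact mul_le_mul_of_nonneg_left hc (Int.natCast_nonneg _)

theorem norm_inv' (b : F') : Algebra.norm F b⁻¹ = (Algebra.norm F b)⁻¹ := by
  rcases eq_or_ne b 0 with rfl | hb
  · simp
  · exact eq_inv_of_mul_eq_one_left (by rw [← map_mul, inv_mul_cancel₀ hb, map_one])

theorem norm_zpow' (b : F') (n : ℤ) : Algebra.norm F (b ^ n) = (Algebra.norm F b) ^ n := by
  cases n with
  | ofNat k => simp
  | negSucc k => simp [norm_inv']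

section Norm

variable (F') in
/-- Elements adapted to the fibre over `v`. -/
structure FiberData (v : Place K F) where
  t : Place K F' → F'
  t_ne : ∀ w ∈ v.fiber F', t w ≠ 0
  t_self : ∀ w ∈ v.fiber F', w.ord (t w) = 1
  t_other : ∀ w ∈ v.fiber F', ∀ w' ∈ v.fiber F', w' ≠ w → w'.ord (t w) = 0
  th : ∀ w : Place K F', Fin (w.inertiaDeg F) → F'
  th_mem : ∀ w j, th w j ∈ ordGe w 0
  th_indep : ∀ w : Place K F', ∀ c : Fin (w.inertiaDeg F) → F,
    (∀ j, c j ∈ ordGe (w.restrict F) 0) →
    ∑ j, algebraMap F F' (c j) * th w j ∈ ordGe w 1 → ∀ j, c j ∈ ordGe (w.restrict F) 1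
  u : ((w : ↥(v.fiber F')) × (Fin ((w : Place K F').ramificationIndex F) ×
    Fin ((w : Place K F').inertiaDeg F))) → F'
  u_approx : ∀ a, ∀ w' ∈ v.fiber F', u a - (if w' = (a.1 : Place K F') then
    t a.1 ^ (a.2.1 : ℕ) * th a.1 a.2.2 else 0) ∈ ordGe w' (w'.ramificationIndex F)

theorem exists_fiberData (v : Place K F) : Nonempty (FiberData F' v) := by
  classical
  have ht : ∀ w : Place K F', ∃ t : F', w ∈ v.fiber F' →
      t ≠ 0 ∧ w.ord t = 1 ∧ ∀ w' ∈ v.fiber F', w' ≠ w → w'.ord t = 0 := fun w => by
    by_cases hw : w ∈ v.fiber F'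
    · obtain ⟨t, ht⟩ := exists_approx_ord (v.fiber F') (fun w' => if w' = w then 1 else 0)
      exact ⟨t, fun _ => ⟨(ht w hw).1, by simpa using (ht w hw).2,
        fun w' hw' hne => by simpa [hne] using (ht w' hw').2⟩⟩
    · exact ⟨0, fun h => absurd h hw⟩
  choose t ht using ht
  have hfin : ∀ w : Place K F', Module.Finite (w.restrict F).ResidueField w.ResidueField :=
    fun w => by
      have := finite_residueField w
      exact Module.Finite.right K (w.restrict F).ResidueField w.ResidueField
  choose g hg using fun w : Place K F' => residueLin_surjective w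
  have happ : ∀ a : ((w : ↥(v.fiber F')) × (Fin ((w : Place K F').ramificationIndex F) ×
      Fin ((w : Place K F').inertiaDeg F))), ∃ u : F', ∀ w' ∈ v.fiber F',
      u - (if w' = (a.1 : Place K F') then t a.1 ^ (a.2.1 : ℕ) *
        (g (a.1 : Place K F') (Module.finBasis _ (a.1 : Place K F').ResidueField a.2.2) : F')
        else 0) ∈ ordGe w' (w'.ramificationIndex F) :=
    fun a => exists_approx _ _ _
  choose u hu using happ
  refine ⟨⟨t, fun w hw => (ht w hw).1, fun w hw => (ht w hw).2.1,
    fun w hw => (ht w hw).2.2,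
    fun w j => (g w (Module.finBasis _ w.ResidueField j) : F'), fun w j => (g w _).2, ?_, u, hu⟩⟩
  intro w c hc hsum j
  let b := Module.finBasis (w.restrict F).ResidueField w.ResidueField
  let c' : Fin (w.inertiaDeg F) → (w.restrict F).toValuationSubring :=
    fun j => ⟨c j, (mem_ordGe_zero _).mp (hc j)⟩
  let G : Fin (w.inertiaDeg F) → w.toValuationSubring :=
    fun j => ⟨(g w (b j) : F'), (mem_ordGe_zero w).mp (g w (b j)).2⟩
  have hG : ∀ j, residue _ (G j) = b j := fun j => hg w (b j)
  have h1 : residue w.toValuationSubring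
      (∑ j, Place.restrictInclusion F w (c' j) * G j) = 0 := by
    refine (residue_eq_zero_iff w).mpr ?_
    push_cast
    exact hsum
  simp only [map_sum, map_mul, hG, ← Place.restrictResidueMap_residue] at h1
  have h2 := Fintype.linearIndependent_iff.mp b.linearIndependent
    (fun j => residue _ (c' j)) (by
      simp only [Algebra.smul_def, Place.algebraMap_residueField_eq]
      exact h1) j
  exact (residue_eq_zero_iff (w.restrict F) (a := c' j)).mp h2

variable {v : Place K F} (d : FiberData F' v)

theorem FiberData.u_mem (a) : ∀ w ∈ v.fiber F', d.u a ∈ ordGe w 0 := by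
  classical
  intro w hw
  rw [← sub_add_cancel (d.u a) (if w = (a.1 : Place K F') then
    d.t a.1 ^ (a.2.1 : ℕ) * d.th a.1 a.2.2 else 0)]
  refine add_mem (ordGe_anti w (Int.natCast_nonneg _) (d.u_approx a w hw)) ?_
  split_ifs with h
  · obtain ⟨⟨w₀, hw₀⟩, i, j⟩ := a
    subst h
    have : d.t w ∈ ordGe w 0 := mem_ordGe_of_le w (by rw [d.t_self w hw]; omega)
    simpa using mul_mem_ordGe w (pow_mem_ordGe w this i) (d.th_mem w j)
  · exact zero_mem _

/-- Integral coefficients of an element of `π B` are divisible by `π`. -/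
theorem FiberData.coeff_mem_one (c : _ → F) (hc : ∀ a, c a ∈ ordGe v 0)
    (h : ∀ w ∈ v.fiber F',
      ∑ a, algebraMap F F' (c a) * d.u a ∈ ordGe w (w.ramificationIndex F)) (a) :
    c a ∈ ordGe v 1 := by
  classical
  obtain ⟨⟨w, hw⟩, i0, j0⟩ := a
  have hwv : w.restrict F = v := Place.mem_fiber.mp hw
  by_contra hne
  have hexi : ∃ i : ℕ, ∃ (hi : i < w.ramificationIndex F), ∃ j,
      c ⟨⟨w, hw⟩, ⟨i, hi⟩, j⟩ ∉ ordGe v 1 := ⟨i0, i0.2, j0, hne⟩
  obtain ⟨hm, hmj⟩ := Nat.find_spec hexi
  set m := Nat.find hexi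
  have hmin : ∀ (i : Fin (w.ramificationIndex F)) (j : Fin (w.inertiaDeg F)), (i : ℕ) < m →
      c ⟨⟨w, hw⟩, i, j⟩ ∈ ordGe v 1 := fun i j hi => by
    by_contra hh
    exact Nat.find_min hexi hi ⟨i.2, j, hh⟩
  have hc' : ∀ a, algebraMap F F' (c a) ∈ ordGe w 0 := fun a => by
    simpa using algebraMap_mem_ordGe w (n := 0) (by rw [hwv]; exact hc a)
  let main := fun a : ((w : ↥(v.fiber F')) × (Fin ((w : Place K F').ramificationIndex F) ×
      Fin ((w : Place K F').inertiaDeg F))) => algebraMap F F' (c a) *
    if w = (a.1 : Place K F') then d.t a.1 ^ (a.2.1 : ℕ) * d.th a.1 a.2.2 else 0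
  have hterm : ∀ a, algebraMap F F' (c a) * d.u a - main a ∈
      ordGe w (w.ramificationIndex F) := fun a => by
    simpa [main, mul_sub] using mul_mem_ordGe w (hc' a) (d.u_approx a w hw)
  have hsum : ∑ a, main a ∈ ordGe w (w.ramificationIndex F) := by
    have := sub_mem (h w hw)
      (sum_mem (S := ordGe w (w.ramificationIndex F)) (t := Finset.univ) fun a _ => hterm a)
    rwa [Finset.sum_sub_distrib, sub_sub_cancel] at this
  have hsum' : ∑ a, main a = ∑ i : Fin (w.ramificationIndex F), ∑ j : Fin (w.inertiaDeg F),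
      algebraMap F F' (c ⟨⟨w, hw⟩, i, j⟩) * (d.t w ^ (i : ℕ) * d.th w j) := by
    rw [Fintype.sum_sigma, Finset.sum_eq_single (⟨w, hw⟩ : ↥(v.fiber F'))]
    · simp [main, Fintype.sum_prod_type]
    · intro w' _ hne'
      refine Finset.sum_eq_zero fun ij _ => ?_
      have : w ≠ (w' : Place K F') := fun hh => hne' (Subtype.ext hh.symm)
      simp [main, this]
    · simp
  rw [hsum', ← Finset.add_sum_erase _ _
    (Finset.mem_univ (⟨m, hm⟩ : Fin (w.ramificationIndex F)))] at hsum
  have hrest : ∑ i ∈ Finset.univ.erase (⟨m, hm⟩ : Fin (w.ramificationIndex F)),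
      ∑ j : Fin (w.inertiaDeg F),
      algebraMap F F' (c ⟨⟨w, hw⟩, i, j⟩) * (d.t w ^ (i : ℕ) * d.th w j)
        ∈ ordGe w (m + 1) := by
    refine sum_mem fun i hi => sum_mem fun j _ => ?_
    have ht := pow_mem_ordGe w (mem_ordGe_of_le w (d.t_self w hw).ge) i
    rw [mul_one] at ht
    have htth := mul_mem_ordGe w ht (d.th_mem w j)
    rw [add_zero] at htth
    rcases lt_trichotomy (i : ℕ) m with h | h | h
    · have h1 := algebraMap_mem_ordGe w (n := 1) (by rw [hwv]; exact hmin i j h)
      exact ordGe_anti w (by omega) (mul_mem_ordGe w h1 htth)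
    · exact absurd (Fin.ext h) (Finset.ne_of_mem_erase hi)
    · exact ordGe_anti w (by omega) (mul_mem_ordGe w (hc' _) htth)
  have hmain : (d.t w ^ m) * ∑ j, algebraMap F F' (c ⟨⟨w, hw⟩, ⟨m, hm⟩, j⟩) * d.th w j
      ∈ ordGe w (m + 1) := by
    have := sub_mem (ordGe_anti w (by omega) hsum) hrest
    rw [add_sub_cancel_right] at this
    rw [Finset.mul_sum]
    convert this using 2 with j
    ring
  have h0 : ∑ j, algebraMap F F' (c ⟨⟨w, hw⟩, ⟨m, hm⟩, j⟩) * d.th w j ∈ ordGe w 1 := by
    rw [← mul_div_cancel_left₀ (∑ j, algebraMap F F' (c ⟨⟨w, hw⟩, ⟨m, hm⟩, j⟩) * d.th w j)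
      (pow_ne_zero m (d.t_ne w hw)), div_eq_mul_inv]
    have hi : (d.t w ^ m)⁻¹ ∈ ordGe w (-(m : ℤ)) :=
      mem_ordGe_of_le w (by rw [w.ord_inv, ord_pow, d.t_self w hw, mul_one])
    exact ordGe_anti w (by omega) (mul_mem_ordGe w hmain hi)
  obtain ⟨j, hj⟩ := hmj
  have := d.th_indep w _ (fun j => by rw [hwv]; exact hc _) h0 j
  rw [hwv] at this
  exact hj this

/-- Coefficients of integral elements are integral. -/
theorem FiberData.coeff_mem (c : _ → F)
    (h : ∀ w ∈ v.fiber F', ∑ a, algebraMap F F' (c a) * d.u a ∈ ordGe w 0) (a) :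
    c a ∈ ordGe v 0 := by
  classical
  by_contra hne
  have hca : c a ≠ 0 := fun h0 => hne (h0 ▸ zero_mem _)
  obtain ⟨b, hb, hbmin⟩ := Finset.exists_min_image (Finset.univ.filter fun b => c b ≠ 0)
    (fun b => v.ord (c b)) ⟨a, by simp [hca]⟩
  simp only [Finset.mem_filter, Finset.mem_univ, true_and] at hb hbmin
  have hneg : v.ord (c b) < 0 := by
    have := hbmin a hca
    by_contra hc
    exact hne (mem_ordGe_of_le v (by omega))
  have h1 := d.coeff_mem_one (fun b' => (c b)⁻¹ * c b') (fun b' => by
    by_cases h0 : c b' = 0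
    · simp [h0]
    · refine mem_ordGe_of_le v ?_
      rw [v.ord_mul (inv_ne_zero hb) h0, v.ord_inv]
      have := hbmin b' h0
      omega) (fun w hw => by
    simp only [map_mul, mul_assoc, ← Finset.mul_sum]
    have hwv : w.restrict F = v := Place.mem_fiber.mp hw
    have h2 : algebraMap F F' (c b)⁻¹ ∈ ordGe w ((w.ramificationIndex F : ℤ) * 1) :=
      algebraMap_mem_ordGe w (by rw [hwv]; exact mem_ordGe_of_le v (by rw [v.ord_inv]; omega))
    simpa using mul_mem_ordGe w h2 (h w hw)) b
  rw [inv_mul_cancel₀ hb, mem_ordGe] at h1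
  simp at h1

theorem FiberData.linearIndependent : LinearIndependent F d.u := by
  classical
  rw [Fintype.linearIndependent_iff]
  intro g hg a
  have hg' : ∑ a, algebraMap F F' (g a) * d.u a = 0 := by simpa [Algebra.smul_def] using hg
  by_contra hne
  obtain ⟨π, hπ, hπ'⟩ := exists_ord_eq v (-v.ord (g a) - 1)
  have h1 := d.coeff_mem (fun b => π * g b) (fun w hw => by
    simp [map_mul, mul_assoc, ← Finset.mul_sum, hg']) a
  have := le_ord_of_mem_ordGe v (mul_ne_zero hπ hne) h1
  rw [v.ord_mul hπ hne, hπ'] at this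
  omega

/-- The adapted basis. -/
def FiberData.basis : Module.Basis ((w : ↥(v.fiber F')) ×
    (Fin ((w : Place K F').ramificationIndex F) × Fin ((w : Place K F').inertiaDeg F))) F F' :=
  Module.Basis.mk d.linearIndependent (by
    rw [d.linearIndependent.span_eq_top_of_card_eq_finrank']
    rw [Fintype.card_sigma]
    simp only [Fintype.card_prod, Fintype.card_fin]
    rw [Finset.sum_coe_sort (v.fiber F')
      (fun w => w.ramificationIndex F * w.inertiaDeg F)]
    exact_mod_cast sum_ramification_inertia (F' := F') v)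

@[simp] theorem FiberData.coe_basis : ⇑d.basis = d.u :=
  Module.Basis.coe_mk _ _

theorem FiberData.repr_mem {b : F'} (hb : ∀ w ∈ v.fiber F', b ∈ ordGe w 0) (a) :
    d.basis.repr b a ∈ ordGe v 0 := by
  refine d.coeff_mem (fun a => d.basis.repr b a) (fun w hw => ?_) a
  have := d.basis.sum_repr b
  simp only [d.coe_basis, Algebra.smul_def] at this
  rw [this]
  exact hb w hw

theorem FiberData.repr_mem_one {b : F'}
    (hb : ∀ w ∈ v.fiber F', b ∈ ordGe w (w.ramificationIndex F)) (a) :
    d.basis.repr b a ∈ ordGe v 1 := by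
  refine d.coeff_mem_one (fun a => d.basis.repr b a)
    (fun a => d.repr_mem (fun w hw => ordGe_anti w (Int.natCast_nonneg _) (hb w hw)) a)
    (fun w hw => ?_) a
  have := d.basis.sum_repr b
  simp only [d.coe_basis, Algebra.smul_def] at this
  rw [this]
  exact hb w hw

theorem prod_mem_ordGe {ι : Type*} (S : Finset ι) (f : ι → F) (n : ι → ℤ)
    (h : ∀ i ∈ S, f i ∈ ordGe v (n i)) : ∏ i ∈ S, f i ∈ ordGe v (∑ i ∈ S, n i) := by
  classical
  induction S using Finset.induction_on with
  | empty => exact mem_ordGe_of_le v (by simp)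
  | @insert a S ha ih =>
    rw [Finset.prod_insert ha, Finset.sum_insert ha]
    exact mul_mem_ordGe v (h a (Finset.mem_insert_self _ _))
      (ih fun i hi => h i (Finset.mem_insert_of_mem hi))

theorem ord_norm_unit (d : FiberData F' v) {b : F'} (hb0 : b ≠ 0)
    (hb : ∀ w ∈ v.fiber F', w.ord b = 0) : v.ord (Algebra.norm F b) = 0 := by
  classical
  have key : ∀ b : F', b ≠ 0 → (∀ w ∈ v.fiber F', 0 ≤ w.ord b) →
      0 ≤ v.ord (Algebra.norm F b) := by
    intro b hb0 hb
    refine le_ord_of_mem_ordGe v (Algebra.norm_ne_zero_iff.mpr hb0) ?_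
    rw [Algebra.norm_eq_matrix_det d.basis, Matrix.det_apply]
    refine sum_mem fun σ _ => ?_
    have := prod_mem_ordGe (v := v) Finset.univ
      (fun i => (Algebra.leftMulMatrix d.basis b) (σ i) i) (fun _ => 0) (fun i _ => by
        rw [Algebra.leftMulMatrix_eq_repr_mul]
        exact d.repr_mem (fun w hw => by
          rw [d.coe_basis]
          simpa using mul_mem_ordGe w (mem_ordGe_of_le w (hb w hw)) (d.u_mem i w hw)) _)
    rw [Finset.sum_const_zero] at this
    rw [Units.smul_def, zsmul_eq_mul]
    rcases Int.units_eq_one_or (Equiv.Perm.sign σ) with h | h <;> simp [h, this]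
  have h1 := key b hb0 (fun w hw => (hb w hw).ge)
  have h2 := key b⁻¹ (inv_ne_zero hb0) (fun w hw => by rw [w.ord_inv, hb w hw, neg_zero])
  have h3 := norm_inv' (F := F) b
  rw [h3, v.ord_inv] at h2
  omega

theorem inertia_le_ord_norm (w : Place K F') (hw : w ∈ v.fiber F') :
    (w.inertiaDeg F : ℤ) ≤ v.ord (Algebra.norm F (d.t w)) := by
  classical
  refine le_ord_of_mem_ordGe v (Algebra.norm_ne_zero_iff.mpr (d.t_ne w hw)) ?_
  rw [Algebra.norm_eq_matrix_det d.basis, Matrix.det_apply]
  refine sum_mem fun σ _ => ?_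
  let n : ((w : ↥(v.fiber F')) × (Fin ((w : Place K F').ramificationIndex F) ×
      Fin ((w : Place K F').inertiaDeg F))) → ℤ :=
    fun a => if (a.1 : Place K F') = w ∧ (a.2.1 : ℕ) + 1 = (a.1 : Place K F').ramificationIndex F
      then 1 else 0
  have ht : ∀ w' ∈ v.fiber F', d.t w ∈ ordGe w' 0 := fun w' hw' => by
    rcases eq_or_ne w' w with rfl | hne
    · exact mem_ordGe_of_le w' (by rw [d.t_self w' hw]; omega)
    · exact mem_ordGe_of_le w' (d.t_other w hw w' hw' hne).ge
  have hn : ∀ a, (Algebra.leftMulMatrix d.basis (d.t w)) (σ a) a ∈ ordGe v (n a) := fun a => by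
    rw [Algebra.leftMulMatrix_eq_repr_mul, d.coe_basis]
    by_cases hc : (a.1 : Place K F') = w ∧ (a.2.1 : ℕ) + 1 = (a.1 : Place K F').ramificationIndex F
    · simp only [n, hc, and_self, if_true]
      refine d.repr_mem_one (fun w' hw' => ?_) _
      rw [← sub_add_cancel (d.u a) (if w' = (a.1 : Place K F') then
        d.t a.1 ^ (a.2.1 : ℕ) * d.th a.1 a.2.2 else 0), mul_add]
      refine add_mem (by simpa using mul_mem_ordGe w' (ht w' hw') (d.u_approx a w' hw')) ?_
      split_ifs with h
      · obtain ⟨⟨w₀, hw₀⟩, i, j⟩ := a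
        obtain ⟨hc1, hc2⟩ := hc
        simp only at h hc1 hc2 ⊢
        subst hc1
        subst h
        have h1 := mem_ordGe_of_le w' (d.t_self w' hw').ge
        have := mul_mem_ordGe w' h1 (mul_mem_ordGe w' (pow_mem_ordGe w' h1 i) (d.th_mem w' j))
        exact ordGe_anti w' (by omega) this
      · rw [mul_zero]; exact zero_mem _
    · simp only [n, if_neg hc]
      exact d.repr_mem (fun w' hw' => by
        simpa using mul_mem_ordGe w' (ht w' hw') (d.u_mem a w' hw')) _
  have hprod := prod_mem_ordGe (v := v) Finset.univ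
    (fun i => (Algebra.leftMulMatrix d.basis (d.t w)) (σ i) i) n (fun a _ => hn a)
  have hsum : ∑ a, n a = (w.inertiaDeg F : ℤ) := by
    rw [Fintype.sum_sigma, Finset.sum_eq_single (⟨w, hw⟩ : ↥(v.fiber F'))]
    · simp only [n, true_and, Fintype.sum_prod_type]
      have hlast : w.ramificationIndex F - 1 < w.ramificationIndex F := by
        have := e_pos (F := F) w; omega
      rw [Finset.sum_eq_single (⟨_, hlast⟩ : Fin (w.ramificationIndex F))]
      · have := e_pos (F := F) w
        rw [Finset.sum_congr rfl fun j _ => if_pos (show w.ramificationIndex F - 1 + 1 = w.ramificationIndex F by omega)]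
        simp
      · intro i _ hi
        refine Finset.sum_eq_zero fun j _ => if_neg ?_
        intro h
        exact hi (Fin.ext (by simp only; omega))
      · simp
    · intro w' _ hne
      refine Finset.sum_eq_zero fun ij _ => if_neg fun h => hne (Subtype.ext h.1)
    · simp
  rw [hsum] at hprod
  rw [Units.smul_def, zsmul_eq_mul]
  rcases Int.units_eq_one_or (Equiv.Perm.sign σ) with h | h <;> simp [h, hprod]

theorem ord_finsetProd {K' L : Type*} [Field K'] [Field L] [Algebra K' L] (u : Place K' L)
    {ι : Type*} (S : Finset ι) (f : ι → L) (hf : ∀ i ∈ S, f i ≠ 0) :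
    u.ord (∏ i ∈ S, f i) = ∑ i ∈ S, u.ord (f i) := by
  classical
  induction S using Finset.induction_on with
  | empty => simp
  | @insert a S ha ih =>
    have hS := fun i hi => hf i (Finset.mem_insert_of_mem hi)
    rw [Finset.prod_insert ha, Finset.sum_insert ha,
      u.ord_mul (hf a (Finset.mem_insert_self _ _)) (Finset.prod_ne_zero_iff.mpr hS), ih hS]

theorem ord_norm_eq_sum (d : FiberData F' v) {f : F'} (hf : f ≠ 0) :
    v.ord (Algebra.norm F f)
      = ∑ w ∈ v.fiber F', w.ord f * v.ord (Algebra.norm F (d.t w)) := by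
  classical
  set P := ∏ w ∈ v.fiber F', d.t w ^ (w.ord f)
  have hP : P ≠ 0 := Finset.prod_ne_zero_iff.mpr fun w hw => zpow_ne_zero _ (d.t_ne w hw)
  have hunit : v.ord (Algebra.norm F (f / P)) = 0 := by
    refine ord_norm_unit d (div_ne_zero hf hP) fun w' hw' => ?_
    rw [ord_div w' hf hP, ord_finsetProd w' _ _ fun w hw => zpow_ne_zero _ (d.t_ne w hw),
      Finset.sum_eq_single w']
    · rw [w'.ord_zpow, d.t_self w' hw']; ring
    · intro w hw hne
      rw [w'.ord_zpow, d.t_other w hw w' hw' hne.symm, mul_zero]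
    · exact fun h => absurd hw' h
  have hnP : Algebra.norm F P ≠ 0 := Algebra.norm_ne_zero_iff.mpr hP
  have h1 : v.ord (Algebra.norm F f) = v.ord (Algebra.norm F P) := by
    have : Algebra.norm F f = Algebra.norm F (f / P) * Algebra.norm F P := by
      rw [← map_mul, div_mul_cancel₀ f hP]
    rw [this, v.ord_mul (Algebra.norm_ne_zero_iff.mpr (div_ne_zero hf hP)) hnP, hunit, zero_add]
  rw [h1, map_prod, ord_finsetProd v _ _ fun w hw =>
    Algebra.norm_ne_zero_iff.mpr (zpow_ne_zero _ (d.t_ne w hw))]
  exact Finset.sum_congr rfl fun w hw => by rw [norm_zpow', v.ord_zpow]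

theorem ord_norm (v : Place K F) {f : F'} (hf : f ≠ 0) :
    v.ord (Algebra.norm F f) = ∑ w ∈ v.fiber F', w.ord f * (w.inertiaDeg F : ℤ) := by
  obtain ⟨d⟩ := exists_fiberData (F' := F') v
  obtain ⟨π, hπ, hπv⟩ := exists_uniformizer v
  have hπ' : algebraMap F F' π ≠ 0 := by simpa using hπ
  have h1 := ord_norm_eq_sum d hπ'
  rw [Algebra.norm_algebraMap, ord_pow, hπv, mul_one] at h1
  have h2 : ∀ w ∈ v.fiber F', w.ord (algebraMap F F' π) = w.ramificationIndex F := fun w hw => by
    rw [w.ord_restrict (F := F), Place.mem_fiber.mp hw, hπv, mul_one]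
  rw [Finset.sum_congr rfl fun w hw => by rw [h2 w hw],
    ← sum_ramification_inertia (F' := F') v] at h1
  have h3 : ∀ w ∈ v.fiber F', (w.ramificationIndex F : ℤ) * v.ord (Algebra.norm F (d.t w)) =
      (w.ramificationIndex F : ℤ) * w.inertiaDeg F := fun w hw => by
    refine (((Finset.sum_eq_sum_iff_of_le fun w hw => ?_).mp h1) w hw).symm
    exact mul_le_mul_of_nonneg_left (inertia_le_ord_norm d w hw) (Int.natCast_nonneg _)
  rw [ord_norm_eq_sum d hf]
  refine Finset.sum_congr rfl fun w hw => ?_
  rw [mul_left_cancel₀ (show (w.ramificationIndex F : ℤ) ≠ 0 by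
    have := e_pos (F := F) w; omega) (h3 w hw)]

theorem pushforwardNormFormula : Divisor.PushforwardNormFormula K F F' := by
  intro f hf D hD v
  classical
  rw [ord_norm v hf, Divisor.pushforward_apply, ← Finset.sum_filter]
  have hsub : (D.support.filter fun w => w.restrict F = v) ⊆ v.fiber F' := fun w hw =>
    Place.mem_fiber.mpr (Finset.mem_filter.mp hw).2
  rw [Finset.sum_subset hsub (fun w hw hnot => ?_)]
  · exact Finset.sum_congr rfl fun w _ => by rw [hD w]
  · rw [Finset.mem_filter, not_and'] at hnot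
    rw [Finsupp.notMem_support_iff.mp (hnot (Place.mem_fiber.mp hw)), zero_mul]

end Norm

section AlongHom

variable {K F F' : Type*} [Field K] [Field F] [Field F'] [Algebra K F] [Algebra K F']
  [IsFunctionField K F] [hF' : IsFunctionField K F']

/-- A morphism of function fields is finite. -/
theorem finiteAlong (φ : F →ₐ[K] F') : FiniteAlong K φ := by
  let := algebraAlong φ
  have := isScalarTower_along φ
  obtain ⟨x, hx, -⟩ := IsFunctionField.exists_finite (K := K) (F := F)
  have hy : Transcendental K (φ x) := fun h =>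
    hx ((isAlgebraic_algebraMap_iff (A := F') (algebraMap F F').injective).mp h)
  have := finiteDimensional_adjoin hy
  have hess := essFiniteType (K := K) (F := F')
  have : Algebra.EssFiniteType F F' := Algebra.EssFiniteType.of_comp K F F'
  have : Algebra.IsAlgebraic F F' := by
    refine ⟨fun z => ?_⟩
    obtain ⟨p, hp, hpz⟩ :=
      (Algebra.IsAlgebraic.of_finite K⟮φ x⟯ F').isAlgebraic z
    let g : K⟮φ x⟯ →+* F := (K⟮x⟯.val.toRingHom).comp
      (((K⟮x⟯.equivMap φ).trans (IntermediateField.equivOfEq (by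
        rw [adjoin_map, Set.image_singleton]))).symm.toRingHom)
    have hg : ∀ a, φ (g a) = (a : F') := fun a => by
      let e := (K⟮x⟯.equivMap φ).trans (IntermediateField.equivOfEq (by
        rw [adjoin_map, Set.image_singleton] : K⟮x⟯.map φ = K⟮φ x⟯))
      exact (congrArg Subtype.val (e.apply_symm_apply a) :)
    refine ⟨p.map g, (Polynomial.map_ne_zero_iff g.injective).mpr hp, ?_⟩
    rw [aeval_def, eval₂_map]
    convert hpz using 2
    rw [aeval_def]
    congr 1
    exact RingHom.ext hg
  exact Algebra.finite_of_essFiniteType_of_isAlgebraic (F := F) (E := F')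

theorem isIntegralAlong (φ : F →ₐ[K] F') : φ.toRingHom.IsIntegral := by
  let := algebraAlong φ
  have : Module.Finite F F' := finiteAlong φ
  exact fun x => Algebra.IsIntegral.isIntegral (R := F) x

theorem fundamentalIdentityAlong (φ : F →ₐ[K] F') (hφ : φ.toRingHom.IsIntegral) :
    FundamentalIdentityAlong K φ hφ := by
  let := algebraAlong φ
  have := isScalarTower_along φ
  have : Module.Finite F F' := finiteAlong φ
  exact fundamentalIdentity

theorem normFormulaAlong (φ : F →ₐ[K] F') (hfin : FiniteAlong K φ) :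
    NormFormulaAlong K φ hfin := by
  let := algebraAlong φ
  have := isScalarTower_along φ
  have : Module.Finite F F' := hfin
  exact pushforwardNormFormula

theorem finrankAlong_pos (φ : F →ₐ[K] F') : 0 < finrankAlong K φ := by
  let := algebraAlong φ
  have : Module.Finite F F' := finiteAlong φ
  exact Module.finrank_pos (R := F) (M := F')

theorem exists_restrictAlong_eq (φ : F →ₐ[K] F') (hφ : φ.toRingHom.IsIntegral) (v : Place K F) :
    ∃ w : Place K F', w.restrictAlong φ hφ = v := by
  let := algebraAlong φ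
  have := isScalarTower_along φ
  have : Module.Finite F F' := finiteAlong φ
  exact exists_restrict_eq v

theorem fundamental_identity_along (φ : F →ₐ[K] F') (hφ : φ.toRingHom.IsIntegral)
    (v : Place K F) :
    ∑ w ∈ Place.fiberAlong φ hφ v, (w.ramificationIndexAlong φ : ℤ) * (w.inertiaDegAlong φ hφ : ℤ)
      = (finrankAlong K φ : ℤ) := by
  let := algebraAlong φ
  have := isScalarTower_along φ
  have : Module.Finite F F' := finiteAlong φ
  exact sum_ramification_inertia v

theorem ord_norm_along (φ : F →ₐ[K] F') (hφ : φ.toRingHom.IsIntegral) (v : Place K F) {f : F'}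
    (hf : f ≠ 0) :
    v.ord (letI := algebraAlong φ; Algebra.norm F f)
      = ∑ w ∈ Place.fiberAlong φ hφ v, w.ord f * (w.inertiaDegAlong φ hφ : ℤ) := by
  let := algebraAlong φ
  have := isScalarTower_along φ
  have : Module.Finite F F' := finiteAlong φ
  exact ord_norm v hf

end AlongHom

end Fermat.Agent.FF
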