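import Fermat.Agent.FF.Degree

/-!
# Riemann's theorem
-/

set_option autoImplicit false

noncomputable section

open scoped Classical

open AlgebraicCurve Polynomial IntermediateField WithZero

namespace Fermat.Agent.FF

set_option linter.unusedSectionVars false
set_option synthInstance.maxHeartbeats 200000

variable {K F : Type*} [Field K] [Field F] [Algebra K F] [IsFunctionField K F]

variable (K) in
/-- `deg D - ℓ(D)`. -/
def gam (D : Divisor K F) : ℤ := Divisor.degree D - ell K D

theorem gam_mono {D E : Divisor K F} (h : D ≤ E) : gam K D ≤ gam K E := by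
  have := ell_le_of_le h
  unfold gam
  omega

theorem gam_add_div {f : F} (hf : f ≠ 0) (D : Divisor K F) : gam K (D + div K f) = gam K D := by
  rw [gam, gam, ell_add_div hf, map_add, degree_div, add_zero]

theorem exists_ne_zero_of_ell_pos {D : Divisor K F} (h : 0 < ell K D) :
    ∃ f : F, f ≠ 0 ∧ 0 ≤ D + div K f := by
  have h' : 0 < Module.finrank K (riemannRochSpace D) := by
    unfold ell at h; omega
  obtain ⟨f, hf⟩ := Module.finrank_pos_iff_exists_ne_zero.mp h'
  have hf0 : (f : F) ≠ 0 := fun h => hf (Subtype.ext h)
  refine ⟨f, hf0, Finsupp.le_def.mpr fun v => ?_⟩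
  have := le_ord_of_mem_ordGe v hf0 (mem_riemannRochSpace'.mp f.2 v)
  simp only [Finsupp.coe_zero, Pi.zero_apply, Finsupp.add_apply, div_apply]
  omega

theorem exists_gam_le : ∃ g : ℤ, ∀ D : Divisor K F, gam K D ≤ g := by
  obtain ⟨x, hx, -⟩ := ‹IsFunctionField K F›.exists_finite
  obtain ⟨C, hC, hCl⟩ := exists_le_ell_poles hx
  have := finiteDimensional_adjoin hx
  set n := Module.finrank K⟮x⟯ F
  set B := poles K x
  have hn : (0 : ℤ) < n := by
    have := Module.finrank_pos (R := K⟮x⟯) (M := F)
    omega
  have hlow : ∀ l : ℕ, ((l : ℤ) + 1) * n - Divisor.degree C ≤ ell K (l • B) := fun l => by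
    have h1 := ell_le_of_le (le_add_of_nonneg_left hC : l • B ≤ C + l • B)
    rw [map_add, add_sub_cancel_right] at h1
    have := hCl l
    omega
  have hlB : ∀ l : ℕ, gam K (l • B) ≤ Divisor.degree C := fun l => by
    have := hlow l
    have hd : Divisor.degree (l • B) = (l : ℤ) * n := by
      rw [map_nsmul, degree_poles hx, nsmul_eq_mul]
    unfold gam
    rw [hd]
    linarith
  refine ⟨Divisor.degree C, fun D => ?_⟩
  let P : Divisor K F := Finsupp.mapRange (fun n : ℤ => max n 0) (by simp) D
  have hP : (0 : Divisor K F) ≤ P := Finsupp.le_def.mpr fun v => by simp [P]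
  have hDP : D ≤ P := Finsupp.le_def.mpr fun v => by simp [P]
  set l : ℕ := (Divisor.degree P + Divisor.degree C).toNat
  have h1 := ell_le_of_le (sub_le_self _ hP : l • B - P ≤ l • B)
  rw [map_sub, sub_sub_cancel] at h1
  have h2 := hlow l
  have h3 : Divisor.degree P + Divisor.degree C ≤ l := Int.self_le_toNat _
  have h4 : (l : ℤ) + 1 ≤ ((l : ℤ) + 1) * n := le_mul_of_one_le_right (by omega) (by omega)
  obtain ⟨f, hf, hfl⟩ := exists_ne_zero_of_ell_pos (D := l • B - P) (by omega)
  calc gam K D ≤ gam K P := gam_mono hDP
    _ ≤ gam K (l • B + div K f) := gam_mono (by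
        have : l • B + div K f - P = l • B - P + div K f := by abel
        rw [← sub_nonneg, this]; exact hfl)
    _ ≤ Divisor.degree C := by rw [gam_add_div hf]; exact hlB l

theorem exists_gam_max : ∃ D₀ : Divisor K F, ∀ D : Divisor K F, gam K D ≤ gam K D₀ := by
  obtain ⟨g, hg⟩ := exists_gam_le (K := K) (F := F)
  obtain ⟨m, ⟨D₀, rfl⟩, hm⟩ := Int.exists_greatest_of_bdd
    (P := fun z => ∃ D : Divisor K F, gam K D = z) ⟨g, fun z ⟨D, hD⟩ => hD ▸ hg D⟩
    ⟨_, 0, rfl⟩
  exact ⟨D₀, fun D => hm _ ⟨D, rfl⟩⟩

/-! ### Repartitions -/

theorem mem_repartitions_iff {α : Place K F → F} :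
    α ∈ repartitions K F ↔ {v : Place K F | v.ord (α v) < 0}.Finite := by
  refine ⟨fun h => ?_, mem_repartitions_of_finite_ord⟩
  induction h using Algebra.adjoin_induction with
  | mem β hβ =>
    refine hβ.subset fun v hv => ?_
    exact v.not_adicValuation_le_one_iff.mpr hv
  | algebraMap f => exact finite_poles f
  | add a b _ _ ha hb =>
    refine (ha.union hb).subset fun v hv => ?_
    by_contra hc
    simp only [Set.mem_union, Set.mem_ofPred_eq, not_or, not_lt] at hc
    have h := add_mem (mem_ordGe_of_le v hc.1) (mem_ordGe_of_le v hc.2)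
    have := ord_nonneg v ((mem_ordGe_zero v).mp h)
    simp only [Set.mem_ofPred_eq, Pi.add_apply] at hv
    omega
  | mul a b _ _ ha hb =>
    refine (ha.union hb).subset fun v hv => ?_
    by_contra hc
    simp only [Set.mem_union, Set.mem_ofPred_eq, not_or, not_lt] at hc
    have h := mul_mem_ordGe v (mem_ordGe_of_le v hc.1) (mem_ordGe_of_le v hc.2)
    have := ord_nonneg v ((mem_ordGe_zero v).mp (by simpa using h))
    simp only [Set.mem_ofPred_eq, Pi.mul_apply] at hv
    omega

theorem mem_repartitionsOf' {D : Divisor K F} {α : repartitions K F} :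
    α ∈ repartitionsOf D ↔ ∀ v : Place K F, (α : Place K F → F) v ∈ ordGe v (-D v) := by
  simp only [mem_repartitionsOf_iff, mem_ordGe]

/-- A repartition supported at one place. -/
def singleRep (v : Place K F) : F →ₗ[K] repartitions K F where
  toFun f := ⟨fun w => if w = v then f else 0, mem_repartitions_of_finite_ord <| by
    refine (Set.finite_singleton v).subset fun w hw => ?_
    classical
    by_contra h
    simp [show w ≠ v from h] at hw⟩
  map_add' f g := Subtype.ext (funext fun w => by
    show (if w = v then f + g else 0) = (if w = v then f else 0) + (if w = v then g else 0)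
    split_ifs <;> simp)
  map_smul' c f := Subtype.ext (funext fun w => by
    show (if w = v then c • f else 0) = c • (if w = v then f else 0)
    split_ifs <;> simp)

theorem singleRep_apply (v w : Place K F) (f : F) :
    ((singleRep v f : repartitions K F) : Place K F → F) w = if w = v then f else 0 := rfl

/-- The constant repartition. -/
theorem mem_principal_algebraMap (f : F) :
    algebraMap F (repartitions K F) f ∈ principalRepartitions K F :=
  mem_principalRepartitions_iff.mpr ⟨f, rfl⟩

variable (K) in
/-- The dimension of `H¹(D)`. -/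
def h1 (D : Divisor K F) : ℤ := Module.finrank K (H1 D)

theorem genusFF_eq : (genusFF K F : ℤ) = h1 K (0 : Divisor K F) := rfl

theorem le_add_single (D : Divisor K F) (v : Place K F) : D ≤ D + Finsupp.single v 1 :=
  le_add_of_nonneg_right (Finsupp.le_def.mpr fun w => by
    rcases eq_or_ne w v with rfl | hw <;> simp [*])

theorem add_single_apply_self (D : Divisor K F) (v : Place K F) :
    (D + Finsupp.single v 1 : Divisor K F) v = D v + 1 := by simp

theorem add_single_apply_ne (D : Divisor K F) {v w : Place K F} (h : w ≠ v) :
    (D + Finsupp.single v 1 : Divisor K F) w = D w := by simp [Finsupp.single_eq_of_ne h]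

/-- Relation between `H¹(D)` and `H¹(D + v)`. -/
theorem h1_add_single (D : Divisor K F) (v : Place K F)
    [FiniteDimensional K (H1 (D + Finsupp.single v 1))] :
    FiniteDimensional K (H1 D) ∧
      h1 K D = h1 K (D + Finsupp.single v 1) + v.deg -
        (ell K (D + Finsupp.single v 1) - ell K D) := by
  classical
  obtain ⟨t, ht0, ht⟩ := exists_ord_eq v (D v + 1)
  obtain ⟨s, hs⟩ := LinearMap.exists_rightInverse_of_surjective (residueLin v)
    (LinearMap.range_eq_top.mpr (residueLin_surjective v))
  have hs' : ∀ r, residueLin v (s r) = r := fun r => LinearMap.congr_fun hs r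
  set D' := D + Finsupp.single v 1 with hD'
  have hti : t⁻¹ ∈ ordGe v (-(D v + 1)) := mem_ordGe_of_le v (by rw [v.ord_inv, ht])
  let proj : H1 D →ₗ[K] H1 D' := Submodule.factor
    (sup_le_sup_right (repartitionsOf_mono (le_add_single D v)) _)
  let ψ : v.ResidueField →ₗ[K] H1 D :=
    (Submodule.mkQ _).comp ((singleRep v).comp
      ((LinearMap.mulRight K t⁻¹).comp ((ordGe v 0).subtype.comp s)))
  have hψ : ∀ r, ψ r = Submodule.Quotient.mk (singleRep v ((s r : F) * t⁻¹)) := fun r => rfl
  have hmem : ∀ f : riemannRochSpace D', (f : F) * t ∈ ordGe v 0 := fun f => by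
    have := mem_riemannRochSpace'.mp f.2 v
    refine ordGe_anti v ?_ (mul_mem_ordGe v this (mem_ordGe_of_le v ht.ge))
    simp [hD']
  let φ : riemannRochSpace D' →ₗ[K] v.ResidueField :=
    (residueLin v).comp (LinearMap.codRestrict (ordGe v 0)
      ((LinearMap.mulRight K t).comp (riemannRochSpace D').subtype) hmem)
  have hφ : ∀ f, φ f = residueLin v ⟨(f : F) * t, hmem f⟩ := fun f => rfl
  -- kernel of `ψ`
  have hker : LinearMap.ker ψ = LinearMap.range φ := by
    ext r
    rw [LinearMap.mem_ker, hψ, Submodule.Quotient.mk_eq_zero, LinearMap.mem_range,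
      Submodule.mem_sup]
    constructor
    · rintro ⟨α, hα, β, hβ, hsum⟩
      obtain ⟨g, hg⟩ := mem_principalRepartitions_iff.mp hβ
      have hw : ∀ w, (α : Place K F → F) w + g = if w = v then (s r : F) * t⁻¹ else 0 :=
        fun w => by
          have := congrFun (congrArg Subtype.val hsum) w
          simpa [hg, singleRep_apply] using this
      have hα' := mem_repartitionsOf'.mp hα
      have hgmem : g ∈ riemannRochSpace D' := mem_riemannRochSpace'.mpr fun w => by
        have h1 := hw w
        by_cases hwv : w = v
        · subst hwv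
          rw [if_pos rfl] at h1
          rw [show g = (s r : F) * t⁻¹ - (α : Place K F → F) w by rw [← h1]; ring,
            hD', add_single_apply_self]
          refine sub_mem ?_ (ordGe_anti w (by omega) (hα' w))
          simpa using mul_mem_ordGe w (s r).2 hti
        · rw [if_neg hwv, add_eq_zero_iff_neg_eq] at h1
          rw [← h1, hD', add_single_apply_ne D hwv]
          exact neg_mem (hα' w)
      refine ⟨⟨g, hgmem⟩, ?_⟩
      rw [hφ, ← hs' r, ← sub_eq_zero, ← map_sub, residueLin_eq_zero_iff]
      have h1 := hw v
      rw [if_pos rfl] at h1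
      have : (g * t - (s r : F)) = -((α : Place K F → F) v * t) := by
        have h2 := congrArg (· * t) h1
        simp only [add_mul, mul_assoc, inv_mul_cancel₀ ht0, mul_one] at h2
        rw [← h2]; ring
      simp only [Submodule.coe_sub]
      rw [this]
      refine neg_mem (ordGe_anti v ?_ (mul_mem_ordGe v (hα' v) (mem_ordGe_of_le v ht.ge)))
      omega
    · rintro ⟨g, hg⟩
      refine ⟨singleRep v ((s r : F) * t⁻¹) - algebraMap F _ (g : F), ?_,
        algebraMap F _ (g : F), mem_principal_algebraMap _, sub_add_cancel _ _⟩
      refine mem_repartitionsOf'.mpr fun w => ?_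
      show (if w = v then (s r : F) * t⁻¹ else 0) - (g : F) ∈ _
      by_cases hwv : w = v
      · subst hwv
        rw [if_pos rfl]
        have h1 : ((s r : F) - (g : F) * t) ∈ ordGe w 1 := by
          have : residueLin w (s r - ⟨(g : F) * t, hmem g⟩) = 0 := by
            rw [map_sub, hs', ← hφ, hg, sub_self]
          simpa using (residueLin_eq_zero_iff w).mp this
        have h2 := mul_mem_ordGe w h1 hti
        rw [sub_mul, mul_assoc, mul_inv_cancel₀ ht0, mul_one] at h2
        exact ordGe_anti w (by omega) h2
      · rw [if_neg hwv, zero_sub]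
        refine neg_mem ?_
        have := mem_riemannRochSpace'.mp g.2 w
        simpa [hD', Finsupp.single_eq_of_ne hwv] using this
  -- range of `ψ`
  have hrange : LinearMap.range ψ = LinearMap.ker proj := by
    apply le_antisymm
    · rintro _ ⟨r, rfl⟩
      rw [LinearMap.mem_ker, hψ]
      show Submodule.Quotient.mk _ = (0 : H1 D')
      rw [Submodule.Quotient.mk_eq_zero]
      refine Submodule.mem_sup_left (mem_repartitionsOf'.mpr fun w => ?_)
      show (if w = v then (s r : F) * t⁻¹ else 0) ∈ _
      split_ifs with h
      · subst h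
        refine ordGe_anti w ?_ (mul_mem_ordGe w (s r).2 hti)
        simp [hD']
      · exact zero_mem _
    · intro z hz
      obtain ⟨α, rfl⟩ := Submodule.Quotient.mk_surjective _ z
      rw [LinearMap.mem_ker] at hz
      change Submodule.Quotient.mk α = (0 : H1 D') at hz
      rw [Submodule.Quotient.mk_eq_zero, Submodule.mem_sup] at hz
      obtain ⟨β, hβ, γ, hγ, rfl⟩ := hz
      have hβ' := mem_repartitionsOf'.mp hβ
      have hbv : (β : Place K F → F) v * t ∈ ordGe v 0 :=
        ordGe_anti v (by simp [hD']) (mul_mem_ordGe v (hβ' v) (mem_ordGe_of_le v ht.ge))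
      refine ⟨residueLin v ⟨_, hbv⟩, ?_⟩
      rw [hψ, Submodule.Quotient.eq, sub_add_eq_sub_sub]
      refine sub_mem (Submodule.mem_sup_left (mem_repartitionsOf'.mpr fun w => ?_))
        (Submodule.mem_sup_right hγ)
      show (if w = v then _ else (0 : F)) - (β : Place K F → F) w ∈ _
      by_cases hwv : w = v
      · subst hwv
        rw [if_pos rfl]
        have h1 : ((s (residueLin w ⟨_, hbv⟩) : F) - (β : Place K F → F) w * t) ∈ ordGe w 1 := by
          have : residueLin w (s (residueLin w ⟨_, hbv⟩) - ⟨_, hbv⟩) = 0 := by
            rw [map_sub, hs', sub_self]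
          simpa using (residueLin_eq_zero_iff w).mp this
        have h2 := mul_mem_ordGe w h1 hti
        rw [sub_mul, mul_assoc, mul_inv_cancel₀ ht0, mul_one] at h2
        exact ordGe_anti w (by omega) h2
      · rw [if_neg hwv, zero_sub]
        refine neg_mem ?_
        have := hβ' w
        rwa [hD', add_single_apply_ne D hwv] at this
  have hsurj : Function.Surjective proj := Submodule.factor_surjective _
  have := finite_residueField v
  have hkfin : FiniteDimensional K (LinearMap.ker proj) := hrange ▸ inferInstance
  have hfin : FiniteDimensional K (H1 D) := by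
    rw [FiniteDimensional, Module.finite_def]
    refine Submodule.fg_of_fg_map_of_fg_inf_ker proj ?_ ?_
    · exact (Submodule.fg_iff_finiteDimensional _).mpr inferInstance
    · rw [top_inf_eq]; exact (Submodule.fg_iff_finiteDimensional _).mpr hkfin
  refine ⟨hfin, ?_⟩
  have e1 := LinearMap.finrank_range_add_finrank_ker ψ
  have e2 := LinearMap.finrank_range_add_finrank_ker φ
  have e3 := LinearMap.finrank_range_add_finrank_ker proj
  rw [LinearMap.range_eq_top.mpr hsurj, finrank_top] at e3
  rw [hker, hrange] at e1
  have e4 : Module.finrank K (LinearMap.ker φ) = Module.finrank K (riemannRochSpace D) := by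
    have : LinearMap.ker φ = (riemannRochSpace D).comap (riemannRochSpace D').subtype := by
      ext f
      rw [LinearMap.mem_ker, hφ, residueLin_eq_zero_iff, Submodule.mem_comap,
        Submodule.coe_subtype, mem_riemannRochSpace']
      constructor
      · intro h w
        rcases eq_or_ne w v with rfl | hw
        · have h2 := mul_mem_ordGe w h hti
          rw [mul_assoc, mul_inv_cancel₀ ht0, mul_one] at h2
          exact ordGe_anti w (by omega) h2
        · simpa [hD', Finsupp.single_eq_of_ne hw] using mem_riemannRochSpace'.mp f.2 w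
      · intro h
        exact ordGe_anti v (by omega) (mul_mem_ordGe v (h v) (mem_ordGe_of_le v ht.ge))
    rw [this]
    exact (Submodule.comapSubtypeEquivOfLe (riemannRochSpace_mono (le_add_single D v))).finrank_eq
  unfold h1 ell Place.deg
  omega

theorem subsingleton_H1_of_max {D₀ : Divisor K F} (h : ∀ D : Divisor K F, gam K D ≤ gam K D₀) :
    Subsingleton (H1 D₀) := by
  classical
  suffices key : ∀ k : ℕ, ∀ E : Divisor K F, D₀ ≤ E →
      (∑ v ∈ (E - D₀ : Divisor K F).support, (E - D₀ : Divisor K F) v) ≤ (k : ℤ) →
      repartitionsOf E ≤ repartitionsOf D₀ ⊔ principalRepartitions K F by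
    refine Submodule.Quotient.subsingleton_iff.mpr (eq_top_iff.mpr ?_)
    intro α _
    let P : Divisor K F := Finsupp.onFinset
      ((mem_repartitions_iff.mp α.2).toFinset ∪ D₀.support)
      (fun v => max (D₀ v) (-v.ord ((α : Place K F → F) v)))
      (fun v hv => by
        by_contra hc
        simp only [Finset.mem_union, Set.Finite.mem_toFinset, Set.mem_ofPred_eq,
          Finsupp.mem_support_iff, not_or, not_not, not_lt] at hc
        exact hv (by rw [hc.2]; omega))
    refine key _ P (Finsupp.le_def.mpr fun v => le_max_left _ _) (Int.self_le_toNat _) ?_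
    exact mem_repartitionsOf'.mpr fun v => mem_ordGe_of_le v (by
      simp only [P, Finsupp.onFinset_apply]; omega)
  intro k
  induction k with
  | zero =>
    intro E hE hsum
    have : E = D₀ := by
      rw [← sub_eq_zero]
      ext v
      by_contra hv
      have h0 : ∀ w, 0 ≤ (E - D₀) w := fun w => Finsupp.le_def.mp (sub_nonneg.mpr hE) w
      have := Finset.single_le_sum (fun w _ => h0 w) (Finsupp.mem_support_iff.mpr hv)
      have h1 : (0 : ℤ) < (E - D₀) v := lt_of_le_of_ne (h0 v) (Ne.symm hv)
      omega
    rw [this]; exact le_sup_left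
  | succ k ih =>
    intro E hE hsum
    by_cases hsum' : (∑ v ∈ (E - D₀).support, (E - D₀) v) ≤ k
    · exact ih E hE hsum'
    obtain ⟨v, hv⟩ : (E - D₀).support.Nonempty := by
      by_contra hne
      rw [Finset.not_nonempty_iff_eq_empty] at hne
      rw [hne, Finset.sum_empty] at hsum'
      omega
    set E' := E - Finsupp.single v 1 with hE'
    have hEE : E = E' + Finsupp.single v 1 := by rw [hE', sub_add_cancel]
    have hval : ∀ w, w ≠ v → E w = E' w := fun w hw => by
      simp [hE', Finsupp.single_eq_of_ne hw]
    have hv1 : 1 ≤ (E - D₀) v := by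
      have := Finsupp.le_def.mp (sub_nonneg.mpr hE) v
      have := Finsupp.mem_support_iff.mp hv
      simp at *
      omega
    have hE'0 : D₀ ≤ E' := Finsupp.le_def.mpr fun w => by
      rcases eq_or_ne w v with rfl | hw
      · simp [hE'] at hv1 ⊢; omega
      · simpa [hE', Finsupp.single_eq_of_ne hw] using Finsupp.le_def.mp hE w
    have ih' := ih E' hE'0 ?_
    · intro α hα
      obtain ⟨t, ht0, ht⟩ := exists_ord_eq v (E' v + 1)
      have hg : gam K E = gam K E' :=
        le_antisymm ((h E).trans (gam_mono hE'0)) (gam_mono (hEE ▸ le_add_single E' v))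
      -- the residue map from `L(E)` is surjective
      have hmem : ∀ f : riemannRochSpace E, (f : F) * t ∈ ordGe v 0 := fun f => by
        have := mem_riemannRochSpace'.mp f.2 v
        refine ordGe_anti v ?_ (mul_mem_ordGe v this (mem_ordGe_of_le v ht.ge))
        rw [hEE, add_single_apply_self]; omega
      let φ : riemannRochSpace E →ₗ[K] v.ResidueField :=
        (residueLin v).comp (LinearMap.codRestrict (ordGe v 0)
          ((LinearMap.mulRight K t).comp (riemannRochSpace E).subtype) hmem)
      have hk : LinearMap.ker φ ≤ (riemannRochSpace E').comap (riemannRochSpace E).subtype := by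
        intro f hf
        simp only [φ, LinearMap.mem_ker, LinearMap.comp_apply, residueLin_eq_zero_iff] at hf
        replace hf : (f : F) * t ∈ ordGe v 1 := hf
        rw [Submodule.mem_comap, Submodule.coe_subtype, mem_riemannRochSpace']
        intro w
        rcases eq_or_ne w v with rfl | hw
        · have h2 := mul_mem_ordGe w hf (mem_ordGe_of_le w (w.ord_inv t).ge)
          rw [mul_assoc, mul_inv_cancel₀ ht0, mul_one] at h2
          exact ordGe_anti w (by omega) h2
        · have := mem_riemannRochSpace'.mp f.2 w
          rwa [hval w hw] at this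
      have := finite_residueField v
      have hφ : Function.Surjective φ := by
        rw [← LinearMap.range_eq_top]
        apply Submodule.eq_top_of_finrank_eq
        have e1 := LinearMap.finrank_range_add_finrank_ker φ
        have e2 := (Submodule.finrank_mono hk).trans_eq
          (Submodule.comapSubtypeEquivOfLe
            (riemannRochSpace_mono (hEE ▸ le_add_single E' v))).finrank_eq
        have e3 : Module.finrank K (LinearMap.range φ) ≤ Module.finrank K v.ResidueField :=
          Submodule.finrank_le _
        have e4 : Divisor.degree E = Divisor.degree E' + v.deg := by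
          rw [hEE, map_add, Divisor.degree_single, one_mul]
        simp only [gam, ell] at hg
        unfold Place.deg at e4
        omega
      have hα' := mem_repartitionsOf'.mp hα
      have hav : (α : Place K F → F) v * t ∈ ordGe v 0 := by
        refine ordGe_anti v ?_ (mul_mem_ordGe v (hα' v) (mem_ordGe_of_le v ht.ge))
        rw [hEE, add_single_apply_self]; omega
      obtain ⟨f, hf⟩ := hφ (residueLin v ⟨_, hav⟩)
      rw [← sub_add_cancel α (algebraMap F _ (f : F))]
      refine add_mem (ih' (mem_repartitionsOf'.mpr fun w => ?_))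
        (Submodule.mem_sup_right (mem_principal_algebraMap _))
      show (α : Place K F → F) w - (f : F) ∈ _
      rcases eq_or_ne w v with rfl | hw
      · have h1 : (α : Place K F → F) w * t - (f : F) * t ∈ ordGe w 1 := by
          have : residueLin w (⟨_, hav⟩ - ⟨_, hmem f⟩) = 0 := by
            rw [map_sub, sub_eq_zero]; exact hf.symm
          simpa using (residueLin_eq_zero_iff w).mp this
        rw [← sub_mul] at h1
        have h2 := mul_mem_ordGe w h1 (mem_ordGe_of_le w (w.ord_inv t).ge)
        rw [mul_assoc, mul_inv_cancel₀ ht0, mul_one] at h2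
        exact ordGe_anti w (by omega) h2
      · have h1 := hα' w
        have h2 := mem_riemannRochSpace'.mp f.2 w
        rw [hval w hw] at h1 h2
        exact sub_mem h1 h2
    · have hsub : (E' - D₀).support ⊆ (E - D₀).support := fun w hw => by
        rcases eq_or_ne w v with rfl | h'
        · exact hv
        · simpa [hE', Finsupp.single_eq_of_ne h'] using hw
      rw [Finset.sum_subset hsub (fun w _ hw => Finsupp.notMem_support_iff.mp hw)]
      have : ∀ w, (E' - D₀) w = (E - D₀) w - if w = v then 1 else 0 := fun w => by
        simp [hE', Finsupp.single_apply, eq_comm]; ring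
      rw [Finset.sum_congr rfl (fun w _ => this w), Finset.sum_sub_distrib, Finset.sum_ite_eq',
        if_pos hv]
      rw [Nat.cast_succ] at hsum
      omega

variable (K) in
/-- The invariant `ℓ - h¹ - deg`. -/
def chi (D : Divisor K F) : ℤ := ell K D - h1 K D - Divisor.degree D

theorem finiteDimensional_of_le {D E : Divisor K F} (h : D ≤ E) [FiniteDimensional K (H1 D)] :
    FiniteDimensional K (H1 E) :=
  Module.Finite.of_surjective _
    (Submodule.factor_surjective (sup_le_sup_right (repartitionsOf_mono h) _))

instance finiteDimensional_H1 (D : Divisor K F) : FiniteDimensional K (H1 D) := by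
  obtain ⟨D₀, hD₀⟩ := exists_gam_max (K := K) (F := F)
  suffices h : ∀ P : Divisor K F, ∀ E, FiniteDimensional K (H1 E) →
      FiniteDimensional K (H1 (E + P)) by
    have := subsingleton_H1_of_max hD₀
    exact add_sub_cancel D₀ D ▸ h (D - D₀) D₀ inferInstance
  intro P
  induction P using Finsupp.induction with
  | zero => intro E hE; rwa [add_zero]
  | single_add v n Q hQ hn ih =>
    intro E hE
    clear hQ hn
    rw [← add_assoc]
    apply ih
    induction n with
    | zero => rwa [Finsupp.single_zero, add_zero]
    | succ k hk =>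
      have := hk
      rw [Finsupp.single_add, ← add_assoc]
      exact finiteDimensional_of_le (le_add_single _ v)
    | pred k hk =>
      have he : E + Finsupp.single v (-(k : ℤ)) =
          E + Finsupp.single v (-(k : ℤ) - 1) + Finsupp.single v 1 := by
        rw [add_assoc, ← Finsupp.single_add, sub_add_cancel]
      rw [he] at hk
      have := hk
      exact (h1_add_single _ v).1

theorem chi_add_single (D : Divisor K F) (v : Place K F) :
    chi K (D + Finsupp.single v 1) = chi K D := by
  have := (h1_add_single D v).2
  simp only [chi, map_add, Divisor.degree_single, one_mul]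
  omega

theorem chi_add (D P : Divisor K F) : chi K (D + P) = chi K D := by
  induction P using Finsupp.induction generalizing D with
  | zero => rw [add_zero]
  | single_add v n Q hQ hn ih =>
    clear hQ hn
    rw [← add_assoc, ih]
    induction n with
    | zero => rw [Finsupp.single_zero, add_zero]
    | succ k hk => rw [Finsupp.single_add, ← add_assoc, chi_add_single]; exact hk
    | pred k hk =>
      rw [← hk, ← chi_add_single (D + Finsupp.single v (-(k : ℤ) - 1)) v, add_assoc,
        ← Finsupp.single_add, sub_add_cancel]

/-- Riemann-Roch, with `h¹` as the correction term. -/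
theorem riemann (D : Divisor K F) :
    ell K D - h1 K D = Divisor.degree D + ell K (0 : Divisor K F) - genusFF K F := by
  have := chi_add (0 : Divisor K F) D
  rw [zero_add] at this
  simp only [chi, map_zero] at this
  rw [genusFF_eq]
  omega

theorem riemann_inequality (D : Divisor K F) :
    Divisor.degree D + ell K (0 : Divisor K F) - genusFF K F ≤ ell K D := by
  have := riemann D
  have : 0 ≤ h1 K D := by unfold h1; exact Int.natCast_nonneg _
  omega

theorem h1_add_div {f : F} (hf : f ≠ 0) (D : Divisor K F) : h1 K (D + div K f) = h1 K D := by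
  have h1' := riemann (D + div K f)
  rw [ell_add_div hf, map_add, degree_div, add_zero] at h1'
  have := riemann D
  omega

theorem algebraMap_mem_riemannRochSpace {D : Divisor K F} (hD : 0 ≤ D) (a : K) :
    algebraMap K F a ∈ riemannRochSpace D := mem_riemannRochSpace'.mpr fun v =>
  mem_ordGe_of_le v (by rw [ord_algebraMap]; exact neg_nonpos.mpr (Finsupp.le_def.mp hD v))

theorem one_le_ell_zero : 1 ≤ ell K (0 : Divisor K F) := by
  have : 0 < Module.finrank K (riemannRochSpace (0 : Divisor K F)) :=
    Module.finrank_pos_iff_exists_ne_zero.mpr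
      ⟨⟨1, by simpa using algebraMap_mem_riemannRochSpace (le_refl (0 : Divisor K F)) 1⟩,
        fun h => one_ne_zero (congrArg Subtype.val h)⟩
  unfold ell
  omega

theorem ell_eq_zero_of_degree_neg {D : Divisor K F} (h : Divisor.degree D < 0) : ell K D = 0 := by
  by_contra hne
  have hpos : 0 < ell K D := by
    have : 0 ≤ ell K D := by unfold ell; exact Int.natCast_nonneg _
    omega
  obtain ⟨f, hf, hf'⟩ := exists_ne_zero_of_ell_pos hpos
  have := degree_nonneg hf'
  rw [map_add, degree_div, add_zero] at this
  omega

theorem exists_h1_eq_zero :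
    ∃ c : ℤ, ∀ D : Divisor K F, c ≤ Divisor.degree D → h1 K D = 0 := by
  obtain ⟨D₀, hD₀⟩ := exists_gam_max (K := K) (F := F)
  have hs := subsingleton_H1_of_max hD₀
  refine ⟨Divisor.degree D₀ + genusFF K F, fun D hD => ?_⟩
  have h1' := riemann_inequality (D - D₀)
  have := one_le_ell_zero (K := K) (F := F)
  rw [map_sub] at h1'
  obtain ⟨f, hf, hf'⟩ := exists_ne_zero_of_ell_pos (D := D - D₀) (by omega)
  have hle : D₀ ≤ D + div K f := sub_nonneg.mp (by
    have : D + div K f - D₀ = D - D₀ + div K f := by abel
    rw [this]; exact hf')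
  rw [← h1_add_div hf D]
  have : Subsingleton (H1 (D + div K f)) :=
    (Submodule.factor_surjective (sup_le_sup_right (repartitionsOf_mono hle) _)).subsingleton
  unfold h1
  rw [Module.finrank_zero_of_subsingleton]
  rfl

/-- Over an algebraically closed constant field. -/
theorem eq_algebraMap_of_ord_nonneg [IsAlgClosed K] {f : F} (h : ∀ v : Place K F, 0 ≤ v.ord f) :
    ∃ a : K, f = algebraMap K F a := by
  by_cases hf : IsAlgebraic K f
  · have : FiniteDimensional K K⟮f⟯ := IntermediateField.adjoin.finiteDimensional hf.isIntegral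
    have hb := IntermediateField.eq_bot_of_isAlgClosed_of_isAlgebraic K⟮f⟯
    obtain ⟨a, ha⟩ := IntermediateField.mem_bot.mp (hb ▸ mem_adjoin_simple_self K f)
    exact ⟨a, ha.symm⟩
  · obtain ⟨v, hv⟩ := exists_ord_neg_of_transcendental (K := K) hf
    exact absurd (h v) (by omega)

theorem deg_eq_one [IsAlgClosed K] (v : Place K F) : v.deg = 1 := by
  have := finite_residueField v
  exact v.deg_eq_one_of_isAlgClosed_of_finite

theorem ell_zero [IsAlgClosed K] : ell K (0 : Divisor K F) = 1 := by
  refine le_antisymm ?_ one_le_ell_zero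
  have : Module.finrank K (riemannRochSpace (0 : Divisor K F)) ≤ 1 := by
    refine finrank_le_one ⟨1, by
      simpa using algebraMap_mem_riemannRochSpace (le_refl (0 : Divisor K F)) 1⟩ fun f => ?_
    obtain ⟨a, ha⟩ := eq_algebraMap_of_ord_nonneg (f := (f : F)) fun v => by
      rcases eq_or_ne (f : F) 0 with h | h
      · simp [h]
      · exact le_ord_of_mem_ordGe v h (by simpa using mem_riemannRochSpace'.mp f.2 v)
    exact ⟨a, Subtype.ext (by simp [ha, Algebra.smul_def])⟩
  unfold ell
  omega

theorem riemann_roch_isAlgClosed [IsAlgClosed K] (D : Divisor K F) :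
    ell K D - h1 K D = Divisor.degree D + 1 - genusFF K F := by
  rw [riemann D, ell_zero]

theorem exists_ell_eq [IsAlgClosed K] : ∃ c : ℤ, ∀ D : Divisor K F, c ≤ Divisor.degree D →
    ell K D = Divisor.degree D + 1 - genusFF K F := by
  obtain ⟨c, hc⟩ := exists_h1_eq_zero (K := K) (F := F)
  refine ⟨c, fun D hD => ?_⟩
  have := riemann_roch_isAlgClosed D
  rw [hc D hD] at this
  omega

end Fermat.Agent.FF
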