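import Fermat.Agent.FF.Kaehler

/-!
# Canonical divisors
-/

set_option autoImplicit false

noncomputable section

open AlgebraicCurve Polynomial IntermediateField KaehlerDifferential
open scoped Classical

namespace Fermat.Agent.FF

set_option linter.unusedSectionVars false

variable {K F : Type*} [Field K] [Field F] [Algebra K F] [IsFunctionField K F] [CharZero K]
  [IsAlgClosed K]

theorem exists_dCoord_eq (v : Place K F) :
    ∃ t : F, v.ord t = 1 ∧ v.dCoord = KaehlerDifferential.D K F t := by
  unfold Place.dCoord
  exact ⟨_, v.ord_coe_irreducible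
    (IsDiscreteValuationRing.exists_irreducible v.toValuationSubring).choose_spec, rfl⟩

theorem differentialCoeff_D (v : Place K F) {t : F} (ht : v.ord t = 1)
    (hd : v.dCoord = KaehlerDifferential.D K F t) (y : F) :
    v.differentialCoeff (KaehlerDifferential.D K F y) = ddx (K := K) t y :=
  v.differentialCoeff_unique (by rw [hd, ddx_spec (transcendental_of_ord_pos v (by omega))])

theorem differentialCoeff_D_ne_zero (v : Place K F) {y : F} (hy : Transcendental K y) :
    v.differentialCoeff (KaehlerDifferential.D K F y) ≠ 0 := fun h => D_ne_zero hy (by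
  rw [← v.differentialCoeff_smul_dCoord (KaehlerDifferential.D K F y), h, zero_smul])

/-- `ord (d y) = e - 1` when `y - c` has order `e ≠ 0`. -/
theorem ordDifferential_D (v : Place K F) {y : F} (c : K)
    (h : v.ord (y - algebraMap K F c) ≠ 0) :
    v.ordDifferential (KaehlerDifferential.D K F y) = v.ord (y - algebraMap K F c) - 1 := by
  obtain ⟨t, ht, hd⟩ := exists_dCoord_eq v
  have htt : Transcendental K t := transcendental_of_ord_pos v (by omega)
  have h2 := (ord_ddx_of_ord_ne_zero v ht h).2
  rw [ddx_sub htt, ddx_algebraMap htt, sub_zero] at h2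
  rw [Place.ordDifferential, differentialCoeff_D v ht hd, h2]

theorem ordDifferential_D_of_ord_neg (v : Place K F) {y : F} (h : v.ord y < 0) :
    v.ordDifferential (KaehlerDifferential.D K F y) = v.ord y - 1 := by
  simpa using ordDifferential_D v (y := y) 0 (by simpa using h.ne)

theorem exists_ord_sub_pos (v : Place K F) {y : F} (hy : Transcendental K y)
    (h : 0 ≤ v.ord y) : ∃ c : K, 0 < v.ord (y - algebraMap K F c) := by
  obtain ⟨c, hc⟩ := exists_sub_mem_ordGe_one v ((mem_iff v).mpr (Or.inr h))
  refine ⟨c, ?_⟩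
  have hne : y - algebraMap K F c ≠ 0 := fun h0 => hy (by
    rw [sub_eq_zero.mp h0]; exact isAlgebraic_algebraMap c)
  have := le_ord_of_mem_ordGe v hne hc
  omega

theorem ordDifferential_smul_D (v : Place K F) {f x : F} (hf : f ≠ 0) (hx : Transcendental K x) :
    v.ordDifferential (f • KaehlerDifferential.D K F x) =
      v.ord f + v.ordDifferential (KaehlerDifferential.D K F x) :=
  v.ordDifferential_smul hf (differentialCoeff_D_ne_zero v hx)

/-- A function field has a divisor of degree at least any bound. -/
theorem exists_degree_ge (b : ℤ) : ∃ D : Divisor K F, b ≤ Divisor.degree D := by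
  obtain ⟨v⟩ := exists_place (K := K) (F := F)
  refine ⟨Finsupp.single v (max b 0), ?_⟩
  rw [Divisor.degree_single, deg_eq_one v]
  simp

/-- `dx` has only finitely many zeros and poles. -/
theorem finite_ordDifferential_D {x : F} (hx : Transcendental K x) :
    {v : Place K F | v.ordDifferential (KaehlerDifferential.D K F x) ≠ 0}.Finite := by
  obtain ⟨c, hc⟩ := exists_ell_eq (K := K) (F := F)
  obtain ⟨D, hD⟩ := exists_degree_ge (K := K) (F := F) (c + 2)
  let z := Module.finBasis K (riemannRochSpace D)
  refine (((D.support.finite_toSet).union (finite_poles x)).union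
    (Set.finite_iUnion fun i => finite_poles (K := K) (ddx (K := K) x (z i : F)))).subset ?_
  intro v hv
  by_contra hnot
  simp only [Set.mem_union, Finset.mem_coe, Finsupp.mem_support_iff, Set.mem_ofPred_eq,
    Set.mem_iUnion, not_or, not_not, not_lt, not_exists] at hnot
  obtain ⟨⟨hDv, hxv⟩, hA⟩ := hnot
  obtain ⟨c₀, hc₀⟩ := exists_ord_sub_pos v hx hxv
  have hdx : v.ordDifferential (KaehlerDifferential.D K F x) = _ := ordDifferential_D v c₀ hc₀.ne'
  rw [Set.mem_ofPred_eq, hdx] at hv
  obtain ⟨t, ht, hd⟩ := exists_dCoord_eq v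
  have htt : Transcendental K t := transcendental_of_ord_pos v (by omega)
  have hdt : ddx (K := K) t x ∈ ordGe v 1 := by
    refine mem_ordGe_of_le v ?_
    have h2 : v.ord (ddx (K := K) t x) = v.ord (x - algebraMap K F c₀) - 1 := by
      rw [← hdx, Place.ordDifferential, differentialCoeff_D v ht hd]
    omega
  -- a function with a simple zero at `v`
  have hle : D - Finsupp.single v 2 ≤ D - Finsupp.single v 1 :=
    sub_le_sub_left (Finsupp.single_le_single.mpr (by norm_num)) D
  have hd1 : c ≤ Divisor.degree (D - Finsupp.single v 1) := by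
    rw [map_sub, Divisor.degree_single, deg_eq_one v]; omega
  have hd2 : c ≤ Divisor.degree (D - Finsupp.single v 2) := by
    rw [map_sub, Divisor.degree_single, deg_eq_one v]; omega
  have hlt : ell K (D - Finsupp.single v 2) < ell K (D - Finsupp.single v 1) := by
    rw [hc _ hd1, hc _ hd2, map_sub, map_sub, Divisor.degree_single, Divisor.degree_single,
      deg_eq_one v]
    omega
  have hne : riemannRochSpace (D - Finsupp.single v 2) ≠
      riemannRochSpace (D - Finsupp.single v 1) := fun h => by
    simp only [ell, (LinearEquiv.ofEq _ _ h).finrank_eq, lt_self_iff_false] at hlt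
  obtain ⟨f, hf1, hf2⟩ :=
    SetLike.exists_of_lt (lt_of_le_of_ne (riemannRochSpace_mono hle) hne)
  have hf0 : f ≠ 0 := fun h => hf2 (h ▸ zero_mem _)
  rw [mem_riemannRochSpace'] at hf1 hf2
  have hford : v.ord f = 1 := by
    have h1 := le_ord_of_mem_ordGe v hf0 (hf1 v)
    simp [hDv] at h1
    by_contra hne1
    refine hf2 fun u => ?_
    rcases eq_or_ne u v with rfl | hu
    · exact mem_ordGe_of_le u (by simp [hDv]; omega)
    · simpa [Finsupp.single_eq_of_ne hu] using hf1 u
  have hfD : f ∈ riemannRochSpace D := mem_riemannRochSpace'.mpr fun u =>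
    ordGe_anti u (by
      rcases eq_or_ne u v with rfl | hu <;> simp [*]) (hf1 u)
  have hsum := congrArg (fun y : riemannRochSpace D => (y : F)) (z.sum_repr ⟨f, hfD⟩)
  simp only [Submodule.coe_sum, Submodule.coe_smul] at hsum
  have h1 : ddx (K := K) x f ∈ ordGe v 0 := by
    rw [← hsum, ddx_sum hx]
    refine sum_mem fun i _ => ?_
    rw [Algebra.smul_def, ddx_mul hx, ddx_algebraMap hx, mul_zero, add_zero, ← Algebra.smul_def]
    exact Submodule.smul_mem _ _ (mem_ordGe_of_le v (hA i))
  have h2 : ddx (K := K) t f ∈ ordGe v 1 := by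
    rw [ddx_chain hx htt]
    simpa using mul_mem_ordGe v h1 hdt
  obtain ⟨h3, h4⟩ := ord_ddx_of_ord_ne_zero v ht (y := f) (by omega)
  have := le_ord_of_mem_ordGe v h3 h2
  omega

theorem exists_eq_smul_D {x : F} (hx : Transcendental K x) (ω : Ω[F⁄K]) :
    ∃ f : F, ω = f • KaehlerDifferential.D K F x := by
  have hω : ω ∈ Submodule.span F {KaehlerDifferential.D K F x} :=
    span_D_eq_top hx ▸ Submodule.mem_top
  obtain ⟨f, hf⟩ := Submodule.mem_span_singleton.mp hω
  exact ⟨f, hf.symm⟩

instance hasCanonicalDivisor : HasCanonicalDivisor (K := K) (F := F) := by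
  refine ⟨fun ω hω => ?_⟩
  obtain ⟨x, hx, -⟩ := IsFunctionField.exists_finite (K := K) (F := F)
  obtain ⟨f, rfl⟩ := exists_eq_smul_D hx ω
  have hf : f ≠ 0 := fun h => hω (by rw [h, zero_smul])
  have hfin := finite_ordDifferential_D hx
  refine ⟨div K f + Finsupp.onFinset hfin.toFinset
    (fun v => v.ordDifferential (KaehlerDifferential.D K F x))
    (fun v hv => hfin.mem_toFinset.mpr hv), fun v => ?_⟩
  rw [ordDifferential_smul_D v hf hx]
  simp

/-- The genus may be computed from any `dx`. -/
theorem genus_eq_of_dx {x : F} (hx : Transcendental K x) :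
    genus K F = (Divisor.degree (canonicalDivisorOf (D_ne_zero (K := K) hx)) + 2).toNat / 2 := by
  have hex : ∃ ω : Ω[F⁄K], ω ≠ 0 := ⟨_, D_ne_zero hx⟩
  unfold genus
  rw [dif_pos hex]
  obtain ⟨f, hf⟩ := exists_eq_smul_D hx hex.choose
  have hf0 : f ≠ 0 := fun h => hex.choose_spec (by rw [hf, h, zero_smul])
  congr 3
  have : canonicalDivisorOf hex.choose_spec
      = div K f + canonicalDivisorOf (D_ne_zero (K := K) hx) := by
    ext v
    rw [Finsupp.add_apply, canonicalDivisorOf_apply, canonicalDivisorOf_apply, hf, div_apply,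
      ordDifferential_smul_D v hf0 hx]
  rw [this, map_add, degree_div, zero_add]

end Fermat.Agent.FF
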