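import Fermat.Agent.FF.Structure
import Fermat.Agent.FF.Approx
import Fermat.Prelude.Def_AlgebraicCurve_IsCurveOver

/-!
# The bound `∑ ord_v x * deg v ≤ [F : K(x)]` and finiteness of residue fields
-/

set_option autoImplicit false

noncomputable section

open AlgebraicCurve Polynomial IntermediateField

namespace Fermat.Agent.FF

variable {K F : Type*} [Field K] [Field F] [Algebra K F]

theorem transcendental_of_ord_pos (v : Place K F) {x : F} (h : 0 < v.ord x) :
    Transcendental K x := by
  refine transcendental_of_valuation_lt_one v.toValuationSubring v.algebraMap_mem' ?_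
    (fun h0 => by simp [h0] at h)
  have hx0 : x ≠ 0 := fun h0 => by simp [h0] at h
  rw [← ValuationSubring.mem_nonunits_iff, ValuationSubring.mem_nonunits_iff_or]
  refine Or.inr fun hc => ?_
  have := ord_nonneg v hc
  rw [v.ord_inv] at this
  omega

theorem transcendental_of_ord_ne_zero (v : Place K F) {x : F} (h : v.ord x ≠ 0) :
    Transcendental K x := by
  rcases lt_or_gt_of_ne h with h | h
  · exact fun hx => transcendental_of_ord_pos v (x := x⁻¹) (by rw [v.ord_inv]; omega)
      (IsAlgebraic.inv_iff.mpr hx)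
  · exact transcendental_of_ord_pos v h

theorem aeval_mem_valuationSubring (v : Place K F) {x : F} (hx : x ∈ v.toValuationSubring)
    (p : K[X]) : aeval x p ∈ v.toValuationSubring := by
  rw [aeval_eq_sum_range]
  exact sum_mem fun i _ => by
    rw [Algebra.smul_def]
    exact mul_mem (v.algebraMap_mem' _) (pow_mem hx _)

theorem aeval_sub_coeff_zero_mem (v : Place K F) {x : F} (hx : 0 < v.ord x) (p : K[X]) :
    aeval x p - algebraMap K F (p.coeff 0) ∈ ordGe v (v.ord x) := by
  conv in aeval x p => rw [← X_mul_divX_add p]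
  rw [map_add, map_mul, aeval_X, aeval_C, add_sub_cancel_right]
  simpa using mul_mem_ordGe v (mem_ordGe_of_le v (le_refl (v.ord x)))
    ((mem_ordGe_zero v).mpr
      (aeval_mem_valuationSubring v ((mem_iff v).mpr (Or.inr hx.le)) p.divX))

/-- Independence over `K(x)` of the approximants of residually independent families. -/
theorem sum_ord_mul_card_le [IsFunctionField K F] {x : F} (S : Finset (Place K F))
    (hS : ∀ v ∈ S, 0 < v.ord x) (d : Place K F → ℕ) (θ : ∀ v : Place K F, Fin (d v) → F)
    (hθ : ∀ v ∈ S, ∀ i, θ v i ∈ ordGe v 0)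
    (hind : ∀ v ∈ S, ∀ c : Fin (d v) → K,
      ∑ i, c i • θ v i ∈ ordGe v 1 → c = 0)
    (hx : Transcendental K x) :
    ∑ v ∈ S, (v.ord x).toNat * d v ≤ Module.finrank K⟮x⟯ F := by
  classical
  have := finiteDimensional_adjoin hx
  choose t ht ht' using fun v : Place K F => exists_uniformizer v
  let E : Place K F → ℕ := fun v => (v.ord x).toNat
  let ι := (v : S) × Fin (E v) × Fin (d v)
  have hu : ∀ a : ι, ∃ u : F, ∀ w ∈ S,
      u - (if w = (a.1 : Place K F) then t a.1 ^ (a.2.1 : ℕ) * θ a.1 a.2.2 else 0)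
        ∈ ordGe w (w.ord x) := fun a =>
    exists_approx S _ _
  choose u hu using hu
  have hli : LinearIndependent K⟮x⟯ u := by
    refine linearIndependent_adjoin hx fun p hp => ?_
    by_contra! hne
    obtain ⟨⟨⟨v, hv⟩, i0, j0⟩, hne⟩ := hne
    have hxv := hS v hv
    have hEv : (E v : ℤ) = v.ord x := Int.toNat_of_nonneg hxv.le
    have hexi : ∃ i : ℕ, ∃ (hi : i < E v), ∃ j, (p ⟨⟨v, hv⟩, ⟨i, hi⟩, j⟩).coeff 0 ≠ 0 :=
      ⟨i0, i0.2, j0, hne⟩
    obtain ⟨hm, hmj⟩ := Nat.find_spec hexi
    set m := Nat.find hexi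
    have hmin : ∀ (i : Fin (E v)) (j : Fin (d v)), (i : ℕ) < m →
        (p ⟨⟨v, hv⟩, i, j⟩).coeff 0 = 0 := fun i j hi => by
      by_contra h
      exact Nat.find_min hexi hi ⟨i.2, j, h⟩
    -- replace every term by its main part
    let main : ι → F := fun a => algebraMap K F ((p a).coeff 0) *
      if v = (a.1 : Place K F) then t a.1 ^ (a.2.1 : ℕ) * θ a.1 a.2.2 else 0
    have hterm : ∀ a : ι, aeval x (p a) * u a - main a ∈ ordGe v (v.ord x) := by
      intro a
      have h1 := hu a v hv
      have h2 := aeval_sub_coeff_zero_mem v hxv (p a)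
      have hu0 : u a ∈ ordGe v 0 := by
        rw [← sub_add_cancel (u a)
          (if v = (a.1 : Place K F) then t a.1 ^ (a.2.1 : ℕ) * θ a.1 a.2.2 else 0)]
        refine add_mem (ordGe_anti v hxv.le h1) ?_
        split_ifs with h
        · obtain ⟨⟨w, hw⟩, i, j⟩ := a
          subst h
          have hte : t v ∈ ordGe v 0 := mem_ordGe_of_le v (by rw [ht']; omega)
          simpa using mul_mem_ordGe v (pow_mem_ordGe v hte i) (hθ v hv j)
        · exact zero_mem _
      have : aeval x (p a) * u a - main a = (aeval x (p a) - algebraMap K F ((p a).coeff 0)) * u a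
          + algebraMap K F ((p a).coeff 0) * (u a -
            if v = (a.1 : Place K F) then t a.1 ^ (a.2.1 : ℕ) * θ a.1 a.2.2 else 0) := by
        simp only [main]; ring
      rw [this, ← Algebra.smul_def]
      exact add_mem (by simpa using mul_mem_ordGe v h2 hu0) (Submodule.smul_mem _ _ h1)
    have hsum : ∑ a, main a ∈ ordGe v (v.ord x) := by
      have := sum_mem (S := ordGe v (v.ord x)) (t := Finset.univ) fun a _ => hterm a
      rw [Finset.sum_sub_distrib, hp, zero_sub, neg_mem_iff] at this
      exact this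
    have hsum' : ∑ a, main a = ∑ i : Fin (E v), ∑ j : Fin (d v),
        algebraMap K F ((p ⟨⟨v, hv⟩, i, j⟩).coeff 0) * (t v ^ (i : ℕ) * θ v j) := by
      rw [Fintype.sum_sigma, Finset.sum_eq_single (⟨v, hv⟩ : S)]
      · simp [main, Fintype.sum_prod_type]
      · intro w _ hw
        refine Finset.sum_eq_zero fun ij _ => ?_
        have : v ≠ (w : Place K F) := fun h => hw (Subtype.ext h.symm)
        simp [main, this]
      · simp
    rw [hsum', ← Finset.add_sum_erase _ _ (Finset.mem_univ (⟨m, hm⟩ : Fin (E v)))] at hsum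
    have hrest : ∑ i ∈ Finset.univ.erase (⟨m, hm⟩ : Fin (E v)), ∑ j : Fin (d v),
        algebraMap K F ((p ⟨⟨v, hv⟩, i, j⟩).coeff 0) * (t v ^ (i : ℕ) * θ v j)
          ∈ ordGe v (m + 1) := by
      refine sum_mem fun i hi => sum_mem fun j _ => ?_
      rcases lt_trichotomy (i : ℕ) m with h | h | h
      · simp [hmin i j h]
      · exact absurd (Fin.ext h) (Finset.ne_of_mem_erase hi)
      · rw [← Algebra.smul_def]
        refine Submodule.smul_mem _ _ (ordGe_anti v ?_ (mul_mem_ordGe v
          (pow_mem_ordGe v (mem_ordGe_of_le v (le_refl (v.ord (t v)))) i) (hθ v hv j)))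
        rw [ht']; omega
    have hmain : (t v ^ m) * ∑ j : Fin (d v), (p ⟨⟨v, hv⟩, ⟨m, hm⟩, j⟩).coeff 0 • θ v j
        ∈ ordGe v (m + 1) := by
      have := sub_mem (ordGe_anti v (by omega) hsum) hrest
      rw [add_sub_cancel_right] at this
      rw [Finset.mul_sum]
      convert this using 2 with j
      rw [Algebra.smul_def]; ring
    have h0 : ∑ j : Fin (d v), (p ⟨⟨v, hv⟩, ⟨m, hm⟩, j⟩).coeff 0 • θ v j ∈ ordGe v 1 := by
      rw [← mul_div_cancel_left₀ (∑ j : Fin (d v), (p ⟨⟨v, hv⟩, ⟨m, hm⟩, j⟩).coeff 0 • θ v j)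
        (pow_ne_zero m (ht v)), div_eq_mul_inv]
      have hi : (t v ^ m)⁻¹ ∈ ordGe v (-(m : ℤ)) :=
        mem_ordGe_of_le v (by rw [v.ord_inv, ord_pow, ht', mul_one])
      exact ordGe_anti v (by omega) (mul_mem_ordGe v hmain hi)
    obtain ⟨j, hj⟩ := hmj
    exact hj (congrFun (hind v hv _ h0) j)
  have h := hli.fintype_card_le_finrank
  simp only [ι, Fintype.card_sigma, Fintype.card_prod, Fintype.card_fin, E] at h
  rwa [Finset.sum_coe_sort S (fun v => (v.ord x).toNat * d v)] at h

variable [IsFunctionField K F]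

theorem finite_residueField (v : Place K F) : Module.Finite K v.ResidueField := by
  obtain ⟨x, hx0, hx⟩ := exists_uniformizer v
  have hxt := transcendental_of_ord_pos v (x := x) (by omega)
  rw [Module.finite_def, Submodule.fg_iff_finiteDimensional]
  have hb : Module.rank K v.ResidueField ≤ (Module.finrank K⟮x⟯ F : ℕ) := by
    refine rank_le fun s hs => ?_
    classical
    choose g hg using residueLin_surjective v
    let e := s.equivFin.symm
    have h := sum_ord_mul_card_le (x := x) {v} (by simp [hx]) (fun _ => s.card)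
      (fun _ i => (g (e i : v.ResidueField) : F)) (fun w hw i => by
        rw [Finset.mem_singleton.mp hw]; exact (g _).2) ?_ hxt
    · simpa [hx] using h
    intro w hw c hc
    rw [Finset.mem_singleton.mp hw] at hc
    have h1 : residueLin v (∑ i, c i • g (e i : v.ResidueField)) = 0 :=
      (residueLin_eq_zero_iff v).mpr (by simpa using hc)
    simp only [map_sum, map_smul, hg] at h1
    exact funext (Fintype.linearIndependent_iff.mp (hs.comp e e.injective) c h1)
  have := Module.rank_lt_aleph0_iff.mp (hb.trans_lt (Cardinal.natCast_lt_aleph0))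
  infer_instance

theorem deg_pos (v : Place K F) : 0 < v.deg := by
  have := finite_residueField v
  exact Module.finrank_pos

theorem sum_ord_mul_deg_le {x : F} (hx : Transcendental K x) (S : Finset (Place K F))
    (hS : ∀ v ∈ S, 0 < v.ord x) :
    ∑ v ∈ S, (v.ord x).toNat * v.deg ≤ Module.finrank K⟮x⟯ F := by
  have := finite_residueField (K := K) (F := F)
  choose g hg using fun v : Place K F => residueLin_surjective v
  refine sum_ord_mul_card_le S hS (fun v => v.deg)
    (fun v i => (g v (Module.finBasis K v.ResidueField i) : F)) (fun v _ i => (g v _).2) ?_ hx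
  intro v _ c hc
  have h1 : residueLin v (∑ i, c i • g v (Module.finBasis K v.ResidueField i)) = 0 :=
    (residueLin_eq_zero_iff v).mpr (by simpa using hc)
  simp only [map_sum, map_smul, hg] at h1
  exact funext (Fintype.linearIndependent_iff.mp
    (Module.finBasis K v.ResidueField).linearIndependent c h1)

theorem card_zeros_le {x : F} (hx : Transcendental K x) (S : Finset (Place K F))
    (hS : ∀ v ∈ S, 0 < v.ord x) : S.card ≤ Module.finrank K⟮x⟯ F := by
  refine le_trans ?_ (sum_ord_mul_deg_le hx S hS)
  rw [Finset.card_eq_sum_ones]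
  exact Finset.sum_le_sum fun v hv => Nat.one_le_iff_ne_zero.mpr
    (Nat.mul_ne_zero (by have := hS v hv; omega) (deg_pos v).ne')

theorem finite_zeros (x : F) : {v : Place K F | 0 < v.ord x}.Finite := by
  rcases Set.eq_empty_or_nonempty {v : Place K F | 0 < v.ord x} with h | ⟨v, hv⟩
  · rw [h]; exact Set.finite_empty
  have hx := transcendental_of_ord_pos v hv
  by_contra hinf
  obtain ⟨T, hT, hTcard⟩ := Set.Infinite.exists_subset_card_eq hinf
    (Module.finrank K⟮x⟯ F + 1)
  have := card_zeros_le hx T (fun w hw => hT hw)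
  omega

theorem finite_poles (x : F) : {v : Place K F | v.ord x < 0}.Finite :=
  (finite_zeros (K := K) x⁻¹).subset fun v hv => by
    simp only [Set.mem_ofPred_eq, v.ord_inv] at hv ⊢; omega

theorem finite_support (x : F) : {v : Place K F | v.ord x ≠ 0}.Finite :=
  ((finite_poles (K := K) x).union (finite_zeros x)).subset fun _ hv =>
    (lt_or_gt_of_ne hv).imp id id

end Fermat.Agent.FF
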