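import Fermat.Agent.FF.Kaehler
import Mathlib.RingTheory.Discriminant

/-!
# Local integral bases and the order of the discriminant
-/

set_option autoImplicit false

noncomputable section

open AlgebraicCurve Polynomial IntermediateField
open scoped Classical

namespace Fermat.Agent.FF

set_option linter.unusedSectionVars false

variable {K E F : Type*} [Field K] [Field E] [Field F] [Algebra K E] [Algebra K F] [Algebra E F]
  [IsScalarTower K E F] [FiniteDimensional E F] [IsFunctionField K E] [IsFunctionField K F]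
  [IsAlgClosed K] [CharZero K] {v : Place K E}

variable (F) in
/-- Functions of order at least `k` times the ramification index on the whole fibre over `v`. -/
def fiberGe (v : Place K E) (k : ℤ) : Submodule K F :=
  ⨅ w ∈ v.fiber F, ordGe w (k * w.ramificationIndex E)

theorem mem_fiberGe {k : ℤ} {f : F} :
    f ∈ fiberGe F v k ↔ ∀ w ∈ v.fiber F, f ∈ ordGe w (k * w.ramificationIndex E) := by
  simp [fiberGe]

theorem mem_fiberGe_zero {f : F} : f ∈ fiberGe F v 0 ↔ ∀ w ∈ v.fiber F, f ∈ ordGe w 0 := by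
  simp [mem_fiberGe]

theorem fiberGe_anti {j k : ℤ} (h : j ≤ k) : fiberGe F v k ≤ fiberGe F v j := fun f hf => by
  rw [mem_fiberGe] at hf ⊢
  exact fun w hw => ordGe_anti w (mul_le_mul_of_nonneg_right h (Int.natCast_nonneg _)) (hf w hw)

theorem mul_mem_fiberGe {j k : ℤ} {f g : F} (hf : f ∈ fiberGe F v j) (hg : g ∈ fiberGe F v k) :
    f * g ∈ fiberGe F v (j + k) := by
  rw [mem_fiberGe] at hf hg ⊢
  intro w hw
  rw [add_mul]
  exact mul_mem_ordGe w (hf w hw) (hg w hw)

theorem algebraMap_mem_fiberGe {k : ℤ} {c : E} (hc : c ∈ ordGe v k) :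
    algebraMap E F c ∈ fiberGe F v k := by
  rw [mem_fiberGe]
  intro w hw
  rw [mul_comm]
  exact algebraMap_mem_ordGe w (by rwa [Place.mem_fiber.mp hw])

variable {n : ℕ}

/-- `u` is regular on the fibre and its reduction modulo a uniformiser of `v` is independent. -/
structure IsLocalBasis (v : Place K E) (u : Fin n → F) : Prop where
  mem : ∀ i, u i ∈ fiberGe F v 0
  indep : ∀ a : Fin n → K, ∑ i, a i • u i ∈ fiberGe F v 1 → a = 0

variable {u : Fin n → F}

theorem IsLocalBasis.coeff_mem_one (h : IsLocalBasis v u) (c : Fin n → E)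
    (hc : ∀ i, c i ∈ ordGe v 0) (hsum : ∑ i, algebraMap E F (c i) * u i ∈ fiberGe F v 1) (i) :
    c i ∈ ordGe v 1 := by
  choose a ha using fun i => exists_sub_mem_ordGe_one v ((mem_ordGe_zero v).mp (hc i))
  have h1 : ∑ i, a i • u i ∈ fiberGe F v 1 := by
    have h2 : ∑ i, algebraMap E F (c i - algebraMap K E (a i)) * u i ∈ fiberGe F v 1 :=
      sum_mem fun i _ => by
        simpa using mul_mem_fiberGe (algebraMap_mem_fiberGe (F := F) (ha i)) (h.mem i)
    have h3 := sub_mem hsum h2
    rw [← Finset.sum_sub_distrib] at h3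
    convert h3 using 2 with i
    rw [map_sub, sub_mul, sub_sub_cancel, ← IsScalarTower.algebraMap_apply, Algebra.smul_def]
  have := ha i
  rw [congrFun (h.indep a h1) i] at this
  simpa using this

theorem IsLocalBasis.coeff_mem (h : IsLocalBasis v u) (c : Fin n → E)
    (hsum : ∑ i, algebraMap E F (c i) * u i ∈ fiberGe F v 0) (a : Fin n) :
    c a ∈ ordGe v 0 := by
  by_contra hne
  have hca : c a ≠ 0 := fun h0 => hne (h0 ▸ zero_mem _)
  obtain ⟨b, hb, hbmin⟩ := Finset.exists_min_image (Finset.univ.filter fun b => c b ≠ 0)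
    (fun b => v.ord (c b)) ⟨a, by simp [hca]⟩
  simp only [Finset.mem_filter, Finset.mem_univ, true_and] at hb hbmin
  have hneg : v.ord (c b) < 0 := by
    have := hbmin a hca
    by_contra hc
    exact hne (mem_ordGe_of_le v (by omega))
  have h1 := h.coeff_mem_one (fun b' => (c b)⁻¹ * c b') (fun b' => by
    by_cases h0 : c b' = 0
    · simp [h0]
    · refine mem_ordGe_of_le v ?_
      rw [v.ord_mul (inv_ne_zero hb) h0, v.ord_inv]
      have := hbmin b' h0
      omega) (by
    simp only [map_mul, mul_assoc, ← Finset.mul_sum]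
    have h2 : algebraMap E F (c b)⁻¹ ∈ fiberGe F v 1 :=
      algebraMap_mem_fiberGe (mem_ordGe_of_le v (by rw [v.ord_inv]; omega))
    simpa using mul_mem_fiberGe h2 hsum) b
  rw [inv_mul_cancel₀ hb, mem_ordGe] at h1
  simp at h1

theorem IsLocalBasis.linearIndependent (h : IsLocalBasis v u) : LinearIndependent E u := by
  rw [Fintype.linearIndependent_iff]
  intro g hg a
  have hg' : ∑ a, algebraMap E F (g a) * u a = 0 := by simpa [Algebra.smul_def] using hg
  by_contra hne
  obtain ⟨π, hπ, hπ'⟩ := exists_ord_eq v (-v.ord (g a) - 1)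
  have h1 := h.coeff_mem (fun b => π * g b) (by
    simp [map_mul, mul_assoc, ← Finset.mul_sum, hg']) a
  have := le_ord_of_mem_ordGe v (mul_ne_zero hπ hne) h1
  rw [v.ord_mul hπ hne, hπ'] at this
  omega

/-- A local basis of full size, as a basis. -/
def IsLocalBasis.basis (h : IsLocalBasis v u) (hn : n = Module.finrank E F) :
    Module.Basis (Fin n) E F :=
  Module.Basis.mk h.linearIndependent (by
    rw [h.linearIndependent.span_eq_top_of_card_eq_finrank' (by simpa using hn)])

@[simp] theorem IsLocalBasis.coe_basis (h : IsLocalBasis v u) (hn : n = Module.finrank E F) :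
    ⇑(h.basis hn) = u := Module.Basis.coe_mk _ _

theorem IsLocalBasis.repr_mem (h : IsLocalBasis v u) (hn : n = Module.finrank E F) {b : F}
    (hb : b ∈ fiberGe F v 0) (i : Fin n) : (h.basis hn).repr b i ∈ ordGe v 0 := by
  refine h.coeff_mem (fun i => (h.basis hn).repr b i) ?_ i
  have := (h.basis hn).sum_repr b
  simp only [h.coe_basis, Algebra.smul_def] at this
  rwa [this]

theorem det_mem {ι : Type*} [Fintype ι] [DecidableEq ι] (M : Matrix ι ι E) (hM : ∀ i j, M i j ∈ ordGe v 0) :
    M.det ∈ ordGe v 0 := by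
  rw [Matrix.det_apply]
  refine sum_mem fun σ _ => ?_
  have := prod_mem_ordGe (v := v) Finset.univ (fun i => M (σ i) i) (fun _ => 0)
    (fun i _ => hM _ _)
  rw [Finset.sum_const_zero] at this
  rw [Units.smul_def, zsmul_eq_mul]
  rcases Int.units_eq_one_or (Equiv.Perm.sign σ) with h | h <;> simp [h, this]

theorem isSeparable_ext (K E F : Type*) [Field K] [CharZero K] [Field E] [Field F] [Algebra K E]
    [Algebra E F] [FiniteDimensional E F] : Algebra.IsSeparable E F := by
  have : CharZero E := charZero_of_injective_algebraMap (algebraMap K E).injective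
  infer_instance

theorem discr_ne_zero' (_v : Place K E) (b : Module.Basis (Fin n) E F) : Algebra.discr E b ≠ 0 :=
  haveI := isSeparable_ext K E F
  Algebra.discr_not_zero_of_basis E b

/-- All local bases have discriminants of the same order. -/
theorem IsLocalBasis.ord_discr_eq {u' : Fin n → F} (h : IsLocalBasis v u)
    (h' : IsLocalBasis v u') (hn : n = Module.finrank E F) :
    v.ord (Algebra.discr E u) = v.ord (Algebra.discr E u') := by
  obtain ⟨b, hb, hbm⟩ : ∃ b : Module.Basis (Fin n) E F, ⇑b = u ∧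
      ∀ f ∈ fiberGe F v 0, ∀ i, b.repr f i ∈ ordGe v 0 :=
    ⟨h.basis hn, h.coe_basis hn, fun f hf => h.repr_mem hn hf⟩
  obtain ⟨b', hb', hbm'⟩ : ∃ b : Module.Basis (Fin n) E F, ⇑b = u' ∧
      ∀ f ∈ fiberGe F v 0, ∀ i, b.repr f i ∈ ordGe v 0 :=
    ⟨h'.basis hn, h'.coe_basis hn, fun f hf => h'.repr_mem hn hf⟩
  set P := b.toMatrix u'
  set Q := b'.toMatrix u
  have hPQ : P * Q = 1 := by
    have h1 := b.toMatrix_mul_toMatrix_flip b'
    rw [hb, hb'] at h1
    exact h1
  have hP : P.det ∈ ordGe v 0 := det_mem P fun i j => by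
    exact hbm _ (h'.mem j) i
  have hQ : Q.det ∈ ordGe v 0 := det_mem Q fun i j => by
    exact hbm' _ (h.mem j) i
  have hdet : P.det * Q.det = 1 := by rw [← Matrix.det_mul, hPQ, Matrix.det_one]
  have hP0 : P.det ≠ 0 := fun h0 => by simp [h0] at hdet
  have hQ0 : Q.det ≠ 0 := fun h0 => by simp [h0] at hdet
  have hord : v.ord P.det = 0 := by
    have h1 := le_ord_of_mem_ordGe v hP0 hP
    have h2 := le_ord_of_mem_ordGe v hQ0 hQ
    have h3 := congrArg v.ord hdet
    rw [v.ord_mul hP0 hQ0, Place.ord_one] at h3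
    omega
  have htr : Algebra.discr E u' = P.det ^ 2 * Algebra.discr E u := by
    have := Algebra.discr_of_matrix_vecMul (A := E) u P
    rw [← this]
    congr 1
    have h2 : Matrix.vecMul (⇑b) (P.map (algebraMap E F)) = u' :=
      funext fun j => by
        simp [P, Matrix.vecMul, dotProduct, Module.Basis.toMatrix_apply, mul_comm,
          ← Algebra.smul_def, b.sum_repr]
    rw [← hb]; exact h2.symm
  have hd : Algebra.discr E u ≠ 0 := by
    have := discr_ne_zero' v b
    simpa [hb] using this
  rw [htr, v.ord_mul (pow_ne_zero _ hP0) hd, ord_pow, hord, mul_zero, zero_add]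

section PowerBasis

theorem exists_theta (v : Place K E) : ∃ (θ : F) (γ : Place K F → K),
    Set.InjOn γ (v.fiber F) ∧ ∀ w ∈ v.fiber F, w.ord (θ - algebraMap K F (γ w)) = 1 ∧
      θ - algebraMap K F (γ w) ≠ 0 := by
  have : CharZero F := charZero_of_injective_algebraMap (algebraMap K F).injective
  let γ : Place K F → K := fun w =>
    if h : w ∈ v.fiber F then ((((v.fiber F).equivFin ⟨w, h⟩ : Fin _) : ℕ) : K) else 0
  have hγ : Set.InjOn γ (v.fiber F) := fun a ha b hb hab => by
    simp only [γ, Finset.mem_coe.mp ha, Finset.mem_coe.mp hb, dif_pos, Nat.cast_inj,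
      Fin.val_inj, EmbeddingLike.apply_eq_iff_eq, Subtype.mk.injEq] at hab
    exact hab
  choose t ht ht' using fun w : Place K F => exists_uniformizer w
  obtain ⟨θ, hθ⟩ := exists_approx (v.fiber F) (fun w => algebraMap K F (γ w) + t w) (fun _ => 2)
  refine ⟨θ, γ, hγ, fun w hw => ?_⟩
  have h := hθ w hw
  rw [← sub_sub] at h
  obtain ⟨h1, h2⟩ := ord_add_eq_left w (ht w) (g := θ - algebraMap K F (γ w) - t w)
    (((mem_ordGe w).mp h).imp_right fun h => by rw [ht']; omega)
  rw [add_sub_cancel] at h1 h2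
  exact ⟨h2.trans (ht' w), h1⟩

variable {θ : F} {γ : Place K F → K} (hγ : Set.InjOn γ (v.fiber F))
  (hθ : ∀ w ∈ v.fiber F, w.ord (θ - algebraMap K F (γ w)) = 1 ∧ θ - algebraMap K F (γ w) ≠ 0)

include hθ in
theorem theta_mem : θ ∈ fiberGe F v 0 := mem_fiberGe_zero.mpr fun w hw => by
  have := mem_ordGe_of_le w (n := 0) (f := θ - algebraMap K F (γ w)) (by rw [(hθ w hw).1]; omega)
  simpa using add_mem this (mem_ordGe_of_le w (n := 0) (ord_algebraMap w (γ w)).ge)

include hθ in
theorem aeval_theta {q : K[X]} (hq : q ≠ 0) {w : Place K F} (hw : w ∈ v.fiber F) :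
    aeval θ q ≠ 0 ∧ w.ord (aeval θ q) = (q.rootMultiplicity (γ w) : ℤ) := by
  obtain ⟨r, hr, hr0⟩ := exists_eq_pow_rootMultiplicity_mul_and_not_dvd q hq (γ w)
  rw [dvd_iff_isRoot, IsRoot.def] at hr0
  set m := q.rootMultiplicity (γ w)
  set z := θ - algebraMap K F (γ w)
  have hz : 0 < w.ord z := by rw [(hθ w hw).1]; omega
  have h1 := aeval_sub_coeff_zero_mem w hz (r.comp (X + C (γ w)))
  have he : aeval z (r.comp (X + C (γ w))) = aeval θ r := by simp [aeval_comp, z]
  have hc : (r.comp (X + C (γ w))).coeff 0 = r.eval (γ w) := by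
    simp [coeff_zero_eq_eval_zero]
  rw [he, hc] at h1
  obtain ⟨h2, h3⟩ := ord_add_eq_left w
    (show algebraMap K F (r.eval (γ w)) ≠ 0 by simpa using hr0)
    (g := aeval θ r - algebraMap K F (r.eval (γ w)))
    (((mem_ordGe w).mp h1).imp_right fun h => by rw [ord_algebraMap]; omega)
  rw [add_sub_cancel] at h2 h3
  have hq' : aeval θ q = z ^ m * aeval θ r := by
    rw [hr, map_mul, map_pow, map_sub, aeval_X, aeval_C]
  rw [hq']
  refine ⟨mul_ne_zero (pow_ne_zero _ (hθ w hw).2) h2, ?_⟩
  rw [w.ord_mul (pow_ne_zero _ (hθ w hw).2) h2, ord_pow, (hθ w hw).1, h3, ord_algebraMap]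
  ring

theorem sum_count_le_card' {α : Type*} [DecidableEq α] (s : Finset α) (m : Multiset α) :
    ∑ a ∈ s, m.count a ≤ Multiset.card m := by
  rw [← Multiset.sum_count_eq_card (s := s ∪ m.toFinset) (m := m) (fun a ha => Finset.mem_union_right _ (Multiset.mem_toFinset.mpr ha))]
  exact Finset.sum_le_sum_of_subset Finset.subset_union_left

theorem ramification_sum (v : Place K E) :
    ∑ w ∈ v.fiber F, w.ramificationIndex E = Module.finrank E F := by
  have h := fundamental_identity (F' := F) v
  simp only [deg_eq_one, Nat.cast_one, mul_one] at h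
  exact_mod_cast h

include hθ hγ in
theorem finrank_le_natDegree {q : K[X]} (hq : q ≠ 0) (hmem : aeval θ q ∈ fiberGe F v 1) :
    Module.finrank E F ≤ q.natDegree := by
  rw [← ramification_sum (F := F) v]
  have hle : ∀ w ∈ v.fiber F, w.ramificationIndex E ≤ q.rootMultiplicity (γ w) := fun w hw => by
    obtain ⟨h1, h2⟩ := aeval_theta hθ hq hw
    have := le_ord_of_mem_ordGe w h1 (mem_fiberGe.mp hmem w hw)
    omega
  refine le_trans (Finset.sum_le_sum hle) ?_
  refine le_trans ?_ q.card_roots'
  rw [← Finset.sum_image (f := fun a : K => q.rootMultiplicity a) hγ]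
  simp only [← count_roots]
  exact sum_count_le_card' _ _

include hθ hγ in
theorem isLocalBasis_powers (hn : n = Module.finrank E F) :
    IsLocalBasis v (fun i : Fin n => θ ^ (i : ℕ)) := by
  refine ⟨fun i => ?_, fun a ha => ?_⟩
  · refine mem_fiberGe_zero.mpr fun w hw => ?_
    simpa using pow_mem_ordGe w (mem_fiberGe_zero.mp (theta_mem hθ) w hw) i
  · set q : K[X] := ∑ i : Fin n, monomial (i : ℕ) (a i)
    have hq : aeval θ q = ∑ i, a i • θ ^ (i : ℕ) := by
      simp [q, aeval_monomial, Algebra.smul_def]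
    by_contra hne
    obtain ⟨i, hi⟩ := Function.ne_iff.mp hne
    have hqi : q.coeff i = a i := by simp [q, finsetSum_coeff, coeff_monomial, Fin.val_inj]
    have hq0 : q ≠ 0 := fun h0 => hi (by rw [Pi.zero_apply, ← hqi, h0, coeff_zero])
    have h1 := finrank_le_natDegree hγ hθ hq0 (hq ▸ ha)
    have h2 : q.degree < (n : ℕ) := by
      refine lt_of_le_of_lt (degree_sum_le _ _) ((Finset.sup_lt_iff (WithBot.bot_lt_coe n)).mpr ?_)
      exact fun j _ => lt_of_le_of_lt (degree_monomial_le _ _) (WithBot.coe_lt_coe.mpr j.2)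
    rw [← natDegree_lt_iff_degree_lt hq0] at h2
    omega

/-- The discriminant of a local basis has order `∑ (e - 1)`. -/
theorem IsLocalBasis.ord_discr (h : IsLocalBasis v u) (hn : n = Module.finrank E F) :
    v.ord (Algebra.discr E u) = ∑ w ∈ v.fiber F, ((w.ramificationIndex E : ℤ) - 1) := by
  have := isSeparable_ext K E F
  obtain ⟨θ, γ, hγ, hθ⟩ := exists_theta (F := F) v
  have hloc := isLocalBasis_powers hγ hθ hn
  set b := hloc.basis hn
  have hb : ⇑b = fun i : Fin n => θ ^ (i : ℕ) := hloc.coe_basis hn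
  let pb : PowerBasis E F := ⟨θ, n, b, fun i => by rw [hb]⟩
  rw [h.ord_discr_eq hloc hn]
  have hd := Algebra.discr_powerBasis_eq_norm E pb
  change Algebra.discr E b = _ at hd
  rw [← hb, hd]
  set P := minpoly E θ
  have hint : IsIntegral E θ := Algebra.IsIntegral.isIntegral θ
  have hdeg : P.natDegree = n := pb.natDegree_minpoly
  have hmonic : P.Monic := minpoly.monic hint
  have hsum0 : ∑ i ∈ Finset.range (n + 1), algebraMap E F (P.coeff i) * θ ^ i = 0 := by
    have := minpoly.aeval E θ
    rw [aeval_eq_sum_range, show (minpoly E θ).natDegree = n from hdeg] at this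
    simpa [Algebra.smul_def] using this
  have hθn : θ ^ n ∈ fiberGe F v 0 := mem_fiberGe_zero.mpr fun w hw => by
    simpa using pow_mem_ordGe w (mem_fiberGe_zero.mp (theta_mem hθ) w hw) n
  have hcoef : ∀ i, P.coeff i ∈ ordGe v 0 := by
    intro i
    rcases lt_trichotomy i n with hi | hi | hi
    · refine hloc.coeff_mem (fun j : Fin n => P.coeff j) ?_ ⟨i, hi⟩
      rw [Finset.sum_range_succ, ← Fin.sum_univ_eq_sum_range
        (fun i => algebraMap E F (P.coeff i) * θ ^ i), ← hdeg, hmonic.coeff_natDegree, map_one,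
        one_mul, hdeg, add_eq_zero_iff_eq_neg] at hsum0
      rw [hsum0]
      exact neg_mem hθn
    · subst hi
      rw [← hdeg, hmonic.coeff_natDegree]
      exact mem_ordGe_of_le v (by simp)
    · rw [coeff_eq_zero_of_natDegree_lt (by omega)]
      exact zero_mem _
  choose a ha using fun i => exists_sub_mem_ordGe_one v ((mem_ordGe_zero v).mp (hcoef i))
  -- the reduction of `P`
  set P₀ : K[X] := X ^ n + ∑ i ∈ Finset.range n, monomial i (a i)
  have hP₀deg : P₀.natDegree = n ∧ P₀.Monic := by
    have hlow : (∑ i ∈ Finset.range n, monomial i (a i)).degree < (n : ℕ) := by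
      refine lt_of_le_of_lt (degree_sum_le _ _) ((Finset.sup_lt_iff (WithBot.bot_lt_coe n)).mpr ?_)
      exact fun j hj => lt_of_le_of_lt (degree_monomial_le _ _)
        (WithBot.coe_lt_coe.mpr (Finset.mem_range.mp hj))
    exact ⟨natDegree_eq_of_degree_eq_some (by
      rw [degree_add_eq_left_of_degree_lt (by rw [degree_X_pow]; exact hlow), degree_X_pow]),
      monic_X_pow_add hlow⟩
  have hdiff : ∀ i, algebraMap K E (P₀.coeff i) - P.coeff i ∈ ordGe v 1 := by
    intro i
    simp only [P₀, coeff_add, coeff_X_pow, finsetSum_coeff, coeff_monomial, Finset.sum_ite_eq',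
      Finset.mem_range]
    rcases lt_trichotomy i n with hi | hi | hi
    · rw [if_neg hi.ne, if_pos hi, zero_add, ← neg_mem_iff, neg_sub]
      exact ha i
    · subst hi
      rw [if_pos rfl, if_neg (lt_irrefl _), add_zero, map_one, ← hdeg, hmonic.coeff_natDegree,
        sub_self]
      exact zero_mem _
    · rw [if_neg hi.ne', if_neg (by omega), add_zero, map_zero,
        coeff_eq_zero_of_natDegree_lt (by omega), sub_zero]
      exact zero_mem _
  set D : E[X] := P₀.map (algebraMap K E) - P
  have hD : ∀ i, D.coeff i ∈ ordGe v 1 := fun i => by simpa [D, coeff_map] using hdiff i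
  have hevD : ∀ Q : E[X], (∀ i, Q.coeff i ∈ ordGe v 1) → aeval θ Q ∈ fiberGe F v 1 := by
    intro Q hQ
    rw [aeval_eq_sum_range]
    refine sum_mem fun i _ => ?_
    rw [Algebra.smul_def]
    have hθi : θ ^ i ∈ fiberGe F v 0 := mem_fiberGe_zero.mpr fun w hw => by
      simpa using pow_mem_ordGe w (mem_fiberGe_zero.mp (theta_mem hθ) w hw) i
    simpa using mul_mem_fiberGe (algebraMap_mem_fiberGe (F := F) (hQ i)) hθi
  have hP₀mem : aeval θ P₀ ∈ fiberGe F v 1 := by
    have := hevD D hD
    rwa [map_sub, minpoly.aeval, sub_zero, aeval_map_algebraMap] at this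
  have hP₀ne : P₀ ≠ 0 := hP₀deg.2.ne_zero
  have hmult : ∀ w ∈ v.fiber F, P₀.rootMultiplicity (γ w) = w.ramificationIndex E := by
    have hle : ∀ w ∈ v.fiber F, w.ramificationIndex E ≤ P₀.rootMultiplicity (γ w) :=
      fun w hw => by
        obtain ⟨h1, h2⟩ := aeval_theta hθ hP₀ne hw
        have := le_ord_of_mem_ordGe w h1 (mem_fiberGe.mp hP₀mem w hw)
        omega
    have hge : ∑ w ∈ v.fiber F, P₀.rootMultiplicity (γ w) ≤
        ∑ w ∈ v.fiber F, w.ramificationIndex E := by
      rw [ramification_sum (F := F) v, ← hn, ← hP₀deg.1,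
        ← Finset.sum_image (f := fun a : K => P₀.rootMultiplicity a) hγ]
      refine le_trans ?_ P₀.card_roots'
      simp only [← count_roots]
      exact sum_count_le_card' _ _
    exact fun w hw => (((Finset.sum_eq_sum_iff_of_le hle).mp
      (le_antisymm (Finset.sum_le_sum hle) hge)) w hw).symm
  have hne : aeval θ (derivative P) ≠ 0 :=
    (Algebra.IsSeparable.isSeparable E θ).aeval_derivative_ne_zero (minpoly.aeval E θ)
  have hord : ∀ w ∈ v.fiber F,
      w.ord (aeval θ (derivative P)) = (w.ramificationIndex E : ℤ) - 1 := by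
    intro w hw
    have he := e_pos (F := E) w
    have hroot : P₀.IsRoot (γ w) := (rootMultiplicity_pos hP₀ne).mp (by rw [hmult w hw]; exact he)
    have hd0 : derivative P₀ ≠ 0 := fun h0 => by
      have h0' := congrArg (coeff · (n - 1)) h0
      have h1 := Module.finrank_pos (R := E) (M := F)
      simp only [coeff_derivative, coeff_zero, show n - 1 + 1 = n by omega] at h0'
      rw [← hP₀deg.1, hP₀deg.2.coeff_natDegree, one_mul] at h0'
      exact Nat.cast_add_one_ne_zero _ h0'
    obtain ⟨h1, h2⟩ := aeval_theta hθ hd0 hw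
    rw [derivative_rootMultiplicity_of_root hroot, hmult w hw] at h2
    have hDd : ∀ i, (derivative D).coeff i ∈ ordGe v 1 := fun i => by
      rw [coeff_derivative]
      have : ((i : E) + 1) ∈ ordGe v 0 := mem_ordGe_of_le v (by
        rw [show ((i : E) + 1) = algebraMap K E ((i + 1 : ℕ) : K) by simp, ord_algebraMap])
      simpa using mul_mem_ordGe v (hD (i + 1)) this
    have h3 := mem_fiberGe.mp (hevD _ hDd) w hw
    rw [one_mul, derivative_sub, derivative_map, map_sub, aeval_map_algebraMap] at h3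
    obtain ⟨-, h5⟩ := ord_add_eq_left w h1
      (g := -(aeval θ (derivative P₀) - aeval θ (derivative P)))
      (by
        rcases (mem_ordGe w).mp h3 with h | h
        · exact Or.inl (by rw [h, neg_zero])
        · exact Or.inr (by rw [h2, ord_neg]; omega))
    rw [neg_sub, add_sub_cancel] at h5
    rw [h5, h2]
    omega
  have hgen : pb.gen = θ := rfl
  rw [v.ord_mul (pow_ne_zero _ (neg_ne_zero.mpr one_ne_zero)) (by
    rw [Algebra.norm_ne_zero_iff, hgen]; exact hne), hgen, ord_norm v hne, ord_pow, ord_neg,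
    Place.ord_one, mul_zero, zero_add]
  refine Finset.sum_congr rfl fun w hw => ?_
  rw [hord w hw]
  have hi : w.inertiaDeg E = 1 := by
    have := w.deg_restrict_mul_inertiaDeg (F := E)
    rwa [deg_eq_one, deg_eq_one, one_mul] at this
  rw [hi, Nat.cast_one, mul_one]

end PowerBasis

end Fermat.Agent.FF
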