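import Fermat.Agent.FF.HeckeInputs
import Fermat.Agent.ModFun.Field

/-!
# The Hecke correspondences on `X₀(N)` in characteristic zero
-/

set_option autoImplicit false

noncomputable section

open AlgebraicCurve ModularCurve

namespace Fermat.Agent.FF

theorem heckeInputsAlong (L : Type*) [Field L] [Algebra ℚ L] (N ℓ : ℕ) [NeZero N] [NeZero ℓ] :
    HeckeInputsAlong L N ℓ :=
  haveI : CharZero L := charZero_of_injective_algebraMap (algebraMap ℚ L).injective
  haveI : NeZero (N * ℓ) := ⟨Nat.mul_ne_zero (NeZero.ne N) (NeZero.ne ℓ)⟩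
  haveI := ModFun.isFunctionField_baseChange N L
  haveI := ModFun.isFunctionField_baseChange (N * ℓ) L
  heckeInputsAlong_of_isFunctionField L N ℓ

end Fermat.Agent.FF
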